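/-
T1-B (helper9): descent of finitely many elements of `ℚ̄ · F₀ ⊆ ℚ̄((q))` to `L · F₀ ⊆ L((q))`,
`L = L_H` the fixed field of a finite-index subgroup `H` of the inertia group of a place `𝔓` of
`ℚ̄` (a field whose valuation ring `𝔓 ∩ L` is a DVR).
-/
import Fermat.Agent.Lib.T1.Core.InertiaDVR
import Fermat.Agent.Lib.Eis.Semi.RatDescent

set_option autoImplicit false
set_option linter.style.haveILetI false
set_option linter.unusedSectionVars false

open HahnSeries ModularCurve Fermat.Agent.TW Fermat.Agent.S05Lib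

noncomputable section

namespace Fermat.Agent.T1

local notation "Qb" => AlgebraicClosure ℚ

section General

variable {L M : Type*} [Field L] [Field M] [Algebra ℚ L] [Algebra ℚ M] [Algebra L M]
  [IsScalarTower ℚ L M]
variable (F₀ : IntermediateField ℚ (LaurentSeries ℚ))

theorem tbd_coeffMap_algebraMap (a : L) :
    coeffMap (algebraMap L M) (algebraMap L (LaurentSeries L) a) =
      algebraMap M (LaurentSeries M) (algebraMap L M a) := by
  rw [algebraMap_laurentSeries_eq_single, algebraMap_laurentSeries_eq_single, coeffMap_single]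

theorem tbd_coeffMap_coeffEmb (f : LaurentSeries ℚ) :
    coeffMap (algebraMap L M) (coeffEmb L f) = coeffEmb M f := by
  rw [coeffEmb, coeffMap_coeffMap, coeffEmb]
  exact coeffMap_congr (RingHom.ext_rat _ _) f

theorem tbd_coeffMap_injective : Function.Injective (coeffMap (algebraMap L M)) := by
  intro s t h
  refine HahnSeries.ext (funext fun n => ?_)
  have := congrArg (fun x : LaurentSeries M => x.coeff n) h
  simp only [coeffMap_coeff] at this
  exact (algebraMap L M).injective this

/-- base change is functorial in the coefficient field -/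
theorem tbd_coeffMap_mem {x : LaurentSeries L} (hx : x ∈ laurentBaseChange L F₀) :
    coeffMap (algebraMap L M) x ∈ laurentBaseChange M F₀ := by
  rw [mem_laurentBaseChange_iff] at hx
  induction hx using Subfield.closure_induction with
  | mem y hy =>
      rcases hy with ⟨a, rfl⟩ | ⟨z, hz, rfl⟩
      · rw [tbd_coeffMap_algebraMap]
        exact (laurentBaseChange M F₀).algebraMap_mem _
      · rw [tbd_coeffMap_coeffEmb]
        exact coeffEmb_mem_laurentBaseChange M hz
  | one => simp
  | add x y _ _ hx hy => simpa using add_mem hx hy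
  | neg x _ hx => simpa using neg_mem hx
  | inv x _ hx => simpa using inv_mem hx
  | mul x y _ _ hx hy => simpa using mul_mem hx hy

end General

section Qbar

variable (F₀ : IntermediateField ℚ (LaurentSeries ℚ))

/-- an element of `ℚ̄ · F₀` descends to `E · F₀` as soon as `E` contains finitely many
specific numbers -/
theorem tbd_exists_finset {h : LaurentSeries Qb} (hh : h ∈ laurentBaseChange Qb F₀) :
    ∃ S : Finset Qb, ∀ E : IntermediateField ℚ Qb, (∀ a ∈ S, a ∈ E) →
      ∃ hE ∈ laurentBaseChange ↥E F₀, coeffMap (algebraMap ↥E Qb) hE = h := by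
  classical
  haveI : Algebra.IsAlgebraic ℚ Qb := AlgebraicClosure.isAlgebraic ℚ
  obtain ⟨c, hc⟩ := Fermat.Agent.Eis.es_exists_finsupp_of_mem_laurentBaseChange Qb F₀ hh
  refine ⟨c.support, fun E hE => ?_⟩
  refine ⟨∑ a ∈ c.support.attach, algebraMap ↥E (LaurentSeries ↥E) ⟨a.1, hE a.1 a.2⟩ *
    coeffEmb ↥E ((c a.1 : ↥F₀) : LaurentSeries ℚ), ?_, ?_⟩
  · refine sum_mem fun a _ => mul_mem ((laurentBaseChange ↥E F₀).algebraMap_mem _) ?_
    exact coeffEmb_mem_laurentBaseChange ↥E (c a.1).2
  · rw [map_sum, hc, Finsupp.sum]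
    rw [← Finset.sum_attach c.support (fun a => algebraMap Qb (LaurentSeries Qb) a *
      coeffEmb Qb ((c a : ↥F₀) : LaurentSeries ℚ))]
    refine Finset.sum_congr rfl fun a _ => ?_
    rw [map_mul, tbd_coeffMap_algebraMap, tbd_coeffMap_coeffEmb]
    rfl

/-- the same for a finite family -/
theorem tbd_exists_finset_family {ι : Type*} (T : Finset ι) (h : ι → LaurentSeries Qb)
    (hh : ∀ i ∈ T, h i ∈ laurentBaseChange Qb F₀) :
    ∃ S : Finset Qb, ∀ E : IntermediateField ℚ Qb, (∀ a ∈ S, a ∈ E) →
      ∀ i ∈ T, ∃ hE ∈ laurentBaseChange ↥E F₀, coeffMap (algebraMap ↥E Qb) hE = h i := by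
  classical
  induction T using Finset.induction_on with
  | empty => exact ⟨∅, fun E _ i hi => absurd hi (Finset.notMem_empty i)⟩
  | insert i T hi ih =>
    obtain ⟨S₁, hS₁⟩ := ih fun j hj => hh j (Finset.mem_insert_of_mem hj)
    obtain ⟨S₂, hS₂⟩ := tbd_exists_finset F₀ (hh i (Finset.mem_insert_self i T))
    refine ⟨S₁ ∪ S₂, fun E hE j hj => ?_⟩
    rcases Finset.mem_insert.mp hj with rfl | hj
    · exact hS₂ E fun a ha => hE a (Finset.mem_union_right _ ha)
    · exact hS₁ E (fun a ha => hE a (Finset.mem_union_left _ ha)) j hj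

variable (𝔓 : FFPlace)

/-- **descent to a finite level**: finitely many elements of `ℚ̄ · F₀` and finitely many numbers
live over the fixed field `L_H` of a finite-index subgroup of inertia -/
theorem tbd_exists_level {ι : Type*} (T : Finset ι) (h : ι → LaurentSeries Qb)
    (hh : ∀ i ∈ T, h i ∈ laurentBaseChange Qb F₀) (S : Finset Qb) :
    ∃ H : Subgroup 𝔓.I, H.FiniteIndex ∧ (∀ z ∈ S, z ∈ tbFix 𝔓 H) ∧
      ∀ i ∈ T, ∃ hE ∈ laurentBaseChange ↥(tbFix 𝔓 H) F₀,
        coeffMap (algebraMap ↥(tbFix 𝔓 H) Qb) hE = h i := by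
  classical
  obtain ⟨S₁, hS₁⟩ := tbd_exists_finset_family F₀ T h hh
  obtain ⟨H, hH, hHS⟩ := tb_exists_finiteIndex_fix 𝔓 (S ∪ S₁)
  exact ⟨H, hH, fun z hz => hHS z (Finset.mem_union_left _ hz),
    hS₁ (tbFix 𝔓 H) fun a ha => hHS a (Finset.mem_union_right _ ha)⟩

end Qbar

end Fermat.Agent.T1
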