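/-
T1-B (helper9): `L · ℚ(j(q^d) : d ∣ N) = L(j(q^d) : d ∣ N)` inside `L((q))`, functoriality of the
function fields `modularFunctionFieldFullC` in the level and in the coefficient ring, and the
"fraction field of a subring" lemma.
-/
import Mathlib
import Fermat.Prelude.Def_ModularCurve_X0ModL
import Fermat.Prelude.Def_ModularCurve_ArithmeticGalois

set_option autoImplicit false
set_option linter.unusedSectionVars false

open HahnSeries ModularCurve

noncomputable section

namespace Fermat.Agent.T1

section BaseChange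

variable (L : Type*) [Field L] [Algebra ℚ L] (N : ℕ) [NeZero N]

theorem tbi_coeffEmb_jqd (d : ℕ) [NeZero d] :
    coeffEmb L (qExpand ℚ d jq) = qExpand L d (jqModC L) := by
  rw [coeffEmb, coeffMap_qExpand, ← jqModC_rat, coeffMap_jqModC]

theorem tbi_coeffEmb_algebraMap (c : ℚ) :
    coeffEmb L (algebraMap ℚ (LaurentSeries ℚ) c) =
      algebraMap L (LaurentSeries L) (algebraMap ℚ L c) := by
  rw [coeffEmb, algebraMap_laurentSeries_eq_single, algebraMap_laurentSeries_eq_single,
    coeffMap_single]

/-- the base change of the rational function field of `X₀(N)` is generated by the `j(q^d)` -/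
theorem tbi_laurentBaseChange_full :
    laurentBaseChange L (modularFunctionFieldFull N) = modularFunctionFieldFullC L N := by
  apply le_antisymm
  · rw [laurentBaseChange, IntermediateField.adjoin_le_iff]
    have key : ∀ x ∈ IntermediateField.adjoin ℚ (divisorExpansions N),
        coeffEmb L x ∈ modularFunctionFieldFullC L N := by
      intro x hx
      induction hx using IntermediateField.adjoin_induction with
      | mem y hy =>
        obtain ⟨d, hd0, hd, rfl⟩ := hy
        rw [tbi_coeffEmb_jqd]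
        exact jqModCd_mem_full L N hd
      | algebraMap c =>
        rw [tbi_coeffEmb_algebraMap]
        exact (modularFunctionFieldFullC L N).algebraMap_mem _
      | add x y _ _ hx hy =>
        rw [map_add]
        exact add_mem hx hy
      | inv x _ hx =>
        rw [map_inv₀]
        exact inv_mem hx
      | mul x y _ _ hx hy =>
        rw [map_mul]
        exact mul_mem hx hy
    rintro _ ⟨x, hx, rfl⟩
    exact key x hx
  · rw [modularFunctionFieldFullC, IntermediateField.adjoin_le_iff]
    rintro _ ⟨d, hd0, hd, rfl⟩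
    rw [SetLike.mem_coe, ← tbi_coeffEmb_jqd]
    exact coeffEmb_mem_laurentBaseChange L (jqd_mem_full N hd)

end BaseChange

section Functorial

variable {R S : Type*} [Field R] [Field S] (f : R →+* S) (N : ℕ) [NeZero N]

theorem tbi_coeffMap_algebraMap (c : R) :
    coeffMap f (algebraMap R (LaurentSeries R) c) = algebraMap S (LaurentSeries S) (f c) := by
  rw [algebraMap_laurentSeries_eq_single, algebraMap_laurentSeries_eq_single, coeffMap_single]

/-- functoriality of `K ↦ K(j(q^d) : d ∣ N)` -/
theorem tbi_coeffMap_mem_fullC {x : LaurentSeries R} (hx : x ∈ modularFunctionFieldFullC R N) :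
    coeffMap f x ∈ modularFunctionFieldFullC S N := by
  have hx' : x ∈ IntermediateField.adjoin R (divisorExpansionsC R N) := hx
  clear hx
  induction hx' using IntermediateField.adjoin_induction with
  | mem y hy =>
    obtain ⟨d, hd0, hd, rfl⟩ := hy
    rw [coeffMap_qExpand, coeffMap_jqModC]
    exact jqModCd_mem_full S N hd
  | algebraMap c =>
    rw [tbi_coeffMap_algebraMap]
    exact (modularFunctionFieldFullC S N).algebraMap_mem _
  | add x y _ _ hx hy =>
    rw [map_add]
    exact add_mem hx hy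
  | inv x _ hx =>
    rw [map_inv₀]
    exact inv_mem hx
  | mul x y _ _ hx hy =>
    rw [map_mul]
    exact mul_mem hx hy

/-- monotonicity in the level -/
theorem tbi_fullC_mono {N N' : ℕ} (h : N ∣ N') :
    modularFunctionFieldFullC R N ≤ modularFunctionFieldFullC R N' := by
  apply IntermediateField.adjoin.mono
  rintro _ ⟨d, hd0, hd, rfl⟩
  exact ⟨d, hd0, hd.trans h, rfl⟩

end Functorial

section Frac

variable {F : Type*} [Field F]

/-- the fraction field of a subring of a field, inside the field -/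
def tbiFrac (R : Subring F) : Subfield F where
  carrier := {f | ∃ a ∈ R, ∃ b ∈ R, b ≠ 0 ∧ f * b = a}
  mul_mem' := by
    rintro f₁ f₂ ⟨a₁, ha₁, b₁, hb₁, h₁, e₁⟩ ⟨a₂, ha₂, b₂, hb₂, h₂, e₂⟩
    refine ⟨a₁ * a₂, R.mul_mem ha₁ ha₂, b₁ * b₂, R.mul_mem hb₁ hb₂, mul_ne_zero h₁ h₂, ?_⟩
    rw [← e₁, ← e₂]
    ring
  one_mem' := ⟨1, R.one_mem, 1, R.one_mem, one_ne_zero, by simp⟩
  add_mem' := by
    rintro f₁ f₂ ⟨a₁, ha₁, b₁, hb₁, h₁, e₁⟩ ⟨a₂, ha₂, b₂, hb₂, h₂, e₂⟩
    refine ⟨a₁ * b₂ + a₂ * b₁, R.add_mem (R.mul_mem ha₁ hb₂) (R.mul_mem ha₂ hb₁), b₁ * b₂,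
      R.mul_mem hb₁ hb₂, mul_ne_zero h₁ h₂, ?_⟩
    rw [← e₁, ← e₂]
    ring
  zero_mem' := ⟨0, R.zero_mem, 1, R.one_mem, one_ne_zero, by simp⟩
  neg_mem' := by
    rintro f ⟨a, ha, b, hb, h, e⟩
    refine ⟨-a, R.neg_mem ha, b, hb, h, ?_⟩
    rw [← e]
    ring
  inv_mem' := by
    rintro f ⟨a, ha, b, hb, h, e⟩
    by_cases hf : f = 0
    · rw [hf, inv_zero]
      exact ⟨0, R.zero_mem, 1, R.one_mem, one_ne_zero, by simp⟩
    · have ha0 : a ≠ 0 := by
        rw [← e]
        exact mul_ne_zero hf h
      refine ⟨b, hb, a, ha, ha0, ?_⟩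
      rw [← e]
      field_simp

theorem mem_tbiFrac (R : Subring F) (f : F) :
    f ∈ tbiFrac R ↔ ∃ a ∈ R, ∃ b ∈ R, b ≠ 0 ∧ f * b = a := Iff.rfl

theorem tbi_le_tbiFrac (R : Subring F) {f : F} (hf : f ∈ R) : f ∈ tbiFrac R :=
  ⟨f, hf, 1, R.one_mem, one_ne_zero, mul_one f⟩

end Frac

section FracFull

variable (K : Type*) [Field K] (N : ℕ) [NeZero N]

/-- if a subring of `K((q))` contains the `j(q^d)`, `d ∣ N`, and its fraction field contains the
constants, then its fraction field contains the function field of level `N` -/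
theorem tbi_fullC_le_frac (R : Subring (LaurentSeries K))
    (hconst : ∀ c : K, algebraMap K (LaurentSeries K) c ∈ tbiFrac R)
    (hj : ∀ (d : ℕ) [NeZero d], d ∣ N → qExpand K d (jqModC K) ∈ R)
    {f : LaurentSeries K} (hf : f ∈ modularFunctionFieldFullC K N) : f ∈ tbiFrac R := by
  have hf' : f ∈ IntermediateField.adjoin K (divisorExpansionsC K N) := hf
  clear hf
  induction hf' using IntermediateField.adjoin_induction with
  | mem y hy =>
    obtain ⟨d, hd0, hd, rfl⟩ := hy
    exact tbi_le_tbiFrac R (hj d hd)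
  | algebraMap c => exact hconst c
  | add x y _ _ hx hy => exact add_mem hx hy
  | inv x _ hx => exact inv_mem hx
  | mul x y _ _ hx hy => exact mul_mem hx hy

end FracFull

end Fermat.Agent.T1
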