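/-
T1-B (helper9): the Gauss ring of `K((q))` for an ARBITRARY valuation subring `A ⊂ K`
(not necessarily discrete), with a ring hom `π : A → k` to a field.

`TbGauss A π f` : `f = g / h` with `g, h ∈ A((q))`, `π(h) ≠ 0`.  These form a subring of `K((q))`
with a residue map `tbRho (g / h) = π(g) / π(h)` to `k((q))`.  Functoriality in `(K, A, π)`.
(The valuation-ring property and the description of the kernel need a discrete valuation and are
NOT proved here; they are transported from finite levels.)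
-/
import Mathlib
import Fermat.Prelude.Def_ModularCurve_LaurentCoeff

set_option autoImplicit false

open HahnSeries ModularCurve

noncomputable section

namespace Fermat.Agent.T1

section Basic

variable {K : Type*} [Field K] (A : ValuationSubring K) {k : Type*} [Field k] (π : ↥A →+* k)

/-- the inclusion `A((q)) → K((q))` -/
def tbInc : LaurentSeries ↥A →+* LaurentSeries K := coeffMap A.subtype

variable {A} in
/-- the reduction `A((q)) → k((q))` -/
def tbRed : LaurentSeries ↥A →+* LaurentSeries k := coeffMap π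

theorem tbInc_coeff (s : LaurentSeries ↥A) (n : ℤ) : (tbInc A s).coeff n = (s.coeff n : K) :=
  coeffMap_coeff _ s n

variable {A} in
theorem tbRed_coeff (s : LaurentSeries ↥A) (n : ℤ) : (tbRed π s).coeff n = π (s.coeff n) :=
  coeffMap_coeff _ s n

theorem tbInc_injective : Function.Injective (tbInc A) := by
  intro s t h
  refine HahnSeries.ext (funext fun n => ?_)
  have := congrArg (fun x : LaurentSeries K => x.coeff n) h
  simp only [tbInc_coeff] at this
  exact Subtype.ext this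

theorem tbInc_C (a : ↥A) : tbInc A (HahnSeries.C a) = HahnSeries.C (a : K) := by
  rw [tbInc, HahnSeries.C_apply, coeffMap_single, HahnSeries.C_apply]
  rfl

variable {A} in
theorem tbRed_C (a : ↥A) : tbRed π (HahnSeries.C a) = HahnSeries.C (π a) := by
  rw [tbRed, HahnSeries.C_apply, coeffMap_single, HahnSeries.C_apply]

variable {A} in
theorem tb_ne_zero_of_red_ne_zero {h : LaurentSeries ↥A} (hh : tbRed π h ≠ 0) : h ≠ 0 := by
  rintro rfl
  exact hh (map_zero _)

theorem tbInc_ne_zero_of_red {h : LaurentSeries ↥A} (hh : tbRed π h ≠ 0) : tbInc A h ≠ 0 :=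
  fun h0 => tb_ne_zero_of_red_ne_zero π hh (tbInc_injective A (by rw [h0, map_zero]))

/-- `f = g / h` with `g, h ∈ A((q))` and `π h ≠ 0` -/
def TbGauss (f : LaurentSeries K) : Prop :=
  ∃ g h : LaurentSeries ↥A, tbRed π h ≠ 0 ∧ f * tbInc A h = tbInc A g

theorem tbGauss_inc (s : LaurentSeries ↥A) : TbGauss A π (tbInc A s) :=
  ⟨s, 1, by rw [map_one]; exact one_ne_zero, by rw [map_one, mul_one]⟩

/-- the Gauss ring as a subring of `K((q))` -/
def tbGaussSubring : Subring (LaurentSeries K) where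
  carrier := {f | TbGauss A π f}
  mul_mem' := by
    rintro f₁ f₂ ⟨g₁, h₁, hh₁, e₁⟩ ⟨g₂, h₂, hh₂, e₂⟩
    refine ⟨g₁ * g₂, h₁ * h₂, by rw [map_mul]; exact mul_ne_zero hh₁ hh₂, ?_⟩
    rw [map_mul, map_mul, ← e₁, ← e₂]
    ring
  one_mem' := ⟨1, 1, by rw [map_one]; exact one_ne_zero, by simp⟩
  add_mem' := by
    rintro f₁ f₂ ⟨g₁, h₁, hh₁, e₁⟩ ⟨g₂, h₂, hh₂, e₂⟩
    refine ⟨g₁ * h₂ + g₂ * h₁, h₁ * h₂, by rw [map_mul]; exact mul_ne_zero hh₁ hh₂, ?_⟩
    rw [map_mul, map_add, map_mul, map_mul, ← e₁, ← e₂]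
    ring
  zero_mem' := ⟨0, 1, by rw [map_one]; exact one_ne_zero, by simp⟩
  neg_mem' := by
    rintro f ⟨g, h, hh, e⟩
    refine ⟨-g, h, hh, ?_⟩
    rw [map_neg, ← e]
    ring

theorem mem_tbGaussSubring_iff (f : LaurentSeries K) :
    f ∈ tbGaussSubring A π ↔ TbGauss A π f := Iff.rfl

/-- well-definedness of `π g / π h` -/
theorem tbRed_div_eq {f : LaurentSeries K} {g h g' h' : LaurentSeries ↥A}
    (hh : tbRed π h ≠ 0) (hh' : tbRed π h' ≠ 0) (e : f * tbInc A h = tbInc A g)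
    (e' : f * tbInc A h' = tbInc A g') :
    tbRed π g / tbRed π h = tbRed π g' / tbRed π h' := by
  have key : g * h' = g' * h := by
    apply tbInc_injective A
    rw [map_mul, map_mul, ← e, ← e']
    ring
  rw [div_eq_div_iff hh hh', ← map_mul, ← map_mul, key]

open Classical in
/-- the residue map of the Gauss ring, as a function on `K((q))` (junk value `0`) -/
def tbRhoFun (f : LaurentSeries K) : LaurentSeries k :=
  if hf : TbGauss A π f then tbRed π hf.choose / tbRed π hf.choose_spec.choose else 0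

theorem tbRhoFun_eq {f : LaurentSeries K} {g h : LaurentSeries ↥A}
    (hh : tbRed π h ≠ 0) (e : f * tbInc A h = tbInc A g) :
    tbRhoFun A π f = tbRed π g / tbRed π h := by
  have hf : TbGauss A π f := ⟨g, h, hh, e⟩
  rw [tbRhoFun, dif_pos hf]
  exact tbRed_div_eq A π hf.choose_spec.choose_spec.1 hh hf.choose_spec.choose_spec.2 e

theorem tbRhoFun_mul {f₁ f₂ : LaurentSeries K} (h₁ : TbGauss A π f₁) (h₂ : TbGauss A π f₂) :
    tbRhoFun A π (f₁ * f₂) = tbRhoFun A π f₁ * tbRhoFun A π f₂ := by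
  obtain ⟨g₁, h₁, hh₁, e₁⟩ := h₁
  obtain ⟨g₂, h₂, hh₂, e₂⟩ := h₂
  have e : f₁ * f₂ * tbInc A (h₁ * h₂) = tbInc A (g₁ * g₂) := by
    rw [map_mul, map_mul, ← e₁, ← e₂]; ring
  rw [tbRhoFun_eq A π (by rw [map_mul]; exact mul_ne_zero hh₁ hh₂) e,
    tbRhoFun_eq A π hh₁ e₁, tbRhoFun_eq A π hh₂ e₂, map_mul, map_mul]
  field_simp

theorem tbRhoFun_add {f₁ f₂ : LaurentSeries K} (h₁ : TbGauss A π f₁) (h₂ : TbGauss A π f₂) :
    tbRhoFun A π (f₁ + f₂) = tbRhoFun A π f₁ + tbRhoFun A π f₂ := by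
  obtain ⟨g₁, h₁, hh₁, e₁⟩ := h₁
  obtain ⟨g₂, h₂, hh₂, e₂⟩ := h₂
  have e : (f₁ + f₂) * tbInc A (h₁ * h₂) = tbInc A (g₁ * h₂ + g₂ * h₁) := by
    rw [map_mul, map_add, map_mul, map_mul, ← e₁, ← e₂]; ring
  rw [tbRhoFun_eq A π (by rw [map_mul]; exact mul_ne_zero hh₁ hh₂) e,
    tbRhoFun_eq A π hh₁ e₁, tbRhoFun_eq A π hh₂ e₂, map_add, map_mul, map_mul, map_mul]
  field_simp

theorem tbRhoFun_zero : tbRhoFun A π (0 : LaurentSeries K) = 0 := by
  have : (0 : LaurentSeries K) * tbInc A 1 = tbInc A 0 := by simp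
  rw [tbRhoFun_eq A π (by rw [map_one]; exact one_ne_zero) this, map_zero, zero_div]

theorem tbRhoFun_one : tbRhoFun A π (1 : LaurentSeries K) = 1 := by
  have : (1 : LaurentSeries K) * tbInc A 1 = tbInc A 1 := by simp
  rw [tbRhoFun_eq A π (by rw [map_one]; exact one_ne_zero) this, map_one, div_one]

/-- the residue map `O → k((q))` on the Gauss subring of `K((q))` -/
def tbRho : ↥(tbGaussSubring A π) →+* LaurentSeries k where
  toFun f := tbRhoFun A π (f : LaurentSeries K)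
  map_one' := tbRhoFun_one A π
  map_zero' := tbRhoFun_zero A π
  map_mul' f₁ f₂ := tbRhoFun_mul A π f₁.2 f₂.2
  map_add' f₁ f₂ := tbRhoFun_add A π f₁.2 f₂.2

theorem tbRho_eq (f : ↥(tbGaussSubring A π)) {g h : LaurentSeries ↥A}
    (hh : tbRed π h ≠ 0) (e : (f : LaurentSeries K) * tbInc A h = tbInc A g) :
    tbRho A π f = tbRed π g / tbRed π h :=
  tbRhoFun_eq A π hh e

theorem tbRho_apply (f : ↥(tbGaussSubring A π)) :
    tbRho A π f = tbRhoFun A π (f : LaurentSeries K) := rfl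

theorem tbRho_inc (s : LaurentSeries ↥A) :
    tbRho A π ⟨tbInc A s, tbGauss_inc A π s⟩ = tbRed π s := by
  rw [tbRho_eq A π _ (g := s) (h := 1) (by rw [map_one]; exact one_ne_zero)
    (by rw [map_one, mul_one]), map_one, div_one]

theorem tbGauss_C (a : ↥A) : TbGauss A π (HahnSeries.C (a : K)) := by
  rw [← tbInc_C]
  exact tbGauss_inc A π _

theorem tbRhoFun_C (a : ↥A) : tbRhoFun A π (HahnSeries.C (a : K)) = HahnSeries.C (π a) := by
  have h1 : (HahnSeries.C (a : K) : LaurentSeries K) * tbInc A 1 = tbInc A (HahnSeries.C a) := by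
    rw [map_one, mul_one, tbInc_C]
  rw [tbRhoFun_eq A π (by rw [map_one]; exact one_ne_zero) h1, map_one, div_one, tbRed_C]

/-- a Gauss element with nonzero residue is a Gauss unit -/
theorem tbGauss_inv {f : LaurentSeries K} (hf : TbGauss A π f) (h0 : tbRhoFun A π f ≠ 0) :
    TbGauss A π f⁻¹ := by
  obtain ⟨g, h, hh, e⟩ := hf
  rw [tbRhoFun_eq A π hh e] at h0
  have hg : tbRed π g ≠ 0 := fun h1 => h0 (by rw [h1, zero_div])
  have hf0 : f ≠ 0 := by
    rintro rfl
    rw [zero_mul] at e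
    exact tbInc_ne_zero_of_red A π hg e.symm
  refine ⟨h, g, hg, ?_⟩
  rw [← e]
  field_simp

theorem tbRhoFun_inv {f : LaurentSeries K} (hf : TbGauss A π f) (h0 : tbRhoFun A π f ≠ 0) :
    tbRhoFun A π f⁻¹ = (tbRhoFun A π f)⁻¹ := by
  obtain ⟨g, h, hh, e⟩ := hf
  have h0' := h0
  rw [tbRhoFun_eq A π hh e] at h0 ⊢
  have hg : tbRed π g ≠ 0 := fun h1 => h0 (by rw [h1, zero_div])
  have hf0 : f ≠ 0 := by
    rintro rfl
    rw [zero_mul] at e
    exact tbInc_ne_zero_of_red A π hg e.symm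
  have e' : f⁻¹ * tbInc A g = tbInc A h := by
    rw [← e]
    field_simp
  rw [tbRhoFun_eq A π hg e', inv_div]

end Basic

section Functorial

variable {K : Type*} [Field K] (A : ValuationSubring K) {k : Type*} [Field k] (π : ↥A →+* k)
variable {K' : Type*} [Field K'] (A' : ValuationSubring K') (π' : ↥A' →+* k)
variable (φ : K →+* K') (ψ : ↥A →+* ↥A') (hψ : ∀ a : ↥A, ((ψ a : ↥A') : K') = φ (a : K))
  (hπ : ∀ a : ↥A, π' (ψ a) = π a)

include hψ in
theorem tbInc_map (s : LaurentSeries ↥A) :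
    tbInc A' (coeffMap ψ s) = coeffMap φ (tbInc A s) := by
  ext n
  rw [tbInc_coeff, coeffMap_coeff, coeffMap_coeff, tbInc_coeff, hψ]

include hπ in
theorem tbRed_map (s : LaurentSeries ↥A) :
    tbRed π' (coeffMap ψ s) = tbRed π s := by
  ext n
  rw [tbRed_coeff, coeffMap_coeff, tbRed_coeff, hπ]

include hψ hπ in
/-- Gauss elements map to Gauss elements -/
theorem TbGauss.map {f : LaurentSeries K} (hf : TbGauss A π f) :
    TbGauss A' π' (coeffMap φ f) := by
  obtain ⟨g, h, hh, e⟩ := hf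
  refine ⟨coeffMap ψ g, coeffMap ψ h, ?_, ?_⟩
  · rwa [tbRed_map A π A' π' ψ hπ]
  · rw [tbInc_map A A' φ ψ hψ, tbInc_map A A' φ ψ hψ, ← map_mul, e]

include hψ hπ in
/-- the residue map is functorial -/
theorem tbRhoFun_map {f : LaurentSeries K} (hf : TbGauss A π f) :
    tbRhoFun A' π' (coeffMap φ f) = tbRhoFun A π f := by
  obtain ⟨g, h, hh, e⟩ := hf
  have e' : coeffMap φ f * tbInc A' (coeffMap ψ h) = tbInc A' (coeffMap ψ g) := by
    rw [tbInc_map A A' φ ψ hψ, tbInc_map A A' φ ψ hψ, ← map_mul, e]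
  rw [tbRhoFun_eq A' π' (by rwa [tbRed_map A π A' π' ψ hπ]) e', tbRhoFun_eq A π hh e,
    tbRed_map A π A' π' ψ hπ, tbRed_map A π A' π' ψ hπ]

end Functorial

end Fermat.Agent.T1
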