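/-
T1-B (helper9): the finite-level interface.

For a place `𝔓` of `ℚ̄` over `ℓ` and a finite-index subgroup `H` of its inertia group:
`L = L_H = ℚ̄^H`, `O = 𝔓 ∩ L` (a DVR), `π : O → κ = 𝔓/𝔪` (surjective).  `TbLevelOK 𝔓 N H` collects
what the good-reduction package (T1-A) gives for the function field `F_H = L(j(q^d) : d ∣ N)`
of `X₀(N)` over `L` with its Gauss valuation; the objects are phrased with the generic Gauss layer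
`TbGauss`/`tbRhoFun` of `GaussA.lean`.
-/
import Fermat.Agent.Lib.T1.Inst.GaussA
import Fermat.Agent.Lib.T1.Inst.Descent
import Fermat.Agent.Lib.T1.Inst.FullC

set_option autoImplicit false
set_option linter.style.haveILetI false
set_option linter.unusedSectionVars false
set_option synthInstance.maxHeartbeats 400000

open HahnSeries ModularCurve Fermat.Agent.TW Fermat.Agent.S05Lib

noncomputable section

namespace Fermat.Agent.T1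

local notation "Qb" => AlgebraicClosure ℚ

variable (𝔓 : FFPlace) (N : ℕ) [NeZero N] (H : Subgroup 𝔓.I)

/-- the function field of `X₀(N)` over `L_H` -/
abbrev tbLevF : IntermediateField ↥(tbFix 𝔓 H) (LaurentSeries ↥(tbFix 𝔓 H)) :=
  laurentBaseChange ↥(tbFix 𝔓 H) (modularFunctionFieldFull N)

/-- the function field of `X₀(N)` over the residue field -/
abbrev tbBarF : IntermediateField (IsLocalRing.ResidueField ↥𝔓.P)
    (LaurentSeries (IsLocalRing.ResidueField ↥𝔓.P)) :=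
  modularFunctionFieldFullC (IsLocalRing.ResidueField ↥𝔓.P) N

theorem tb_jq_mem_tbLevF : jqModC ↥(tbFix 𝔓 H) ∈ tbLevF 𝔓 N H := by
  rw [tbLevF, tbi_laurentBaseChange_full]
  exact jqModC_mem_full _ N

/-- `j` at level `H` -/
def tbLevJ : ↥(tbLevF 𝔓 N H) := ⟨jqModC ↥(tbFix 𝔓 H), tb_jq_mem_tbLevF 𝔓 N H⟩

/-- `j̄` -/
def tbBarJ : ↥(tbBarF 𝔓 N) := ⟨jqModC (IsLocalRing.ResidueField ↥𝔓.P), jqModC_mem_full _ N⟩

/-- what the good reduction package gives at the finite level `H` -/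
structure TbLevelOK : Prop where
  /-- Gauss normal form -/
  nf : ∀ f : LaurentSeries ↥(tbFix 𝔓 H), f ∈ tbLevF 𝔓 N H → f ≠ 0 →
    ∃ (c : ↥(tbFix 𝔓 H)) (a b : LaurentSeries ↥(tbFixO 𝔓 H)), c ≠ 0 ∧
      tbInc (tbFixO 𝔓 H) a ∈ tbLevF 𝔓 N H ∧ tbInc (tbFixO 𝔓 H) b ∈ tbLevF 𝔓 N H ∧
      tbRed (tbFixRes 𝔓 H) a ≠ 0 ∧ tbRed (tbFixRes 𝔓 H) b ≠ 0 ∧
      f * tbInc (tbFixO 𝔓 H) b = HahnSeries.C c * tbInc (tbFixO 𝔓 H) a
  /-- (A1), first half: reductions of modular functions are modular functions -/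
  range : ∀ f : LaurentSeries ↥(tbFix 𝔓 H), f ∈ tbLevF 𝔓 N H →
    TbGauss (tbFixO 𝔓 H) (tbFixRes 𝔓 H) f →
    tbRhoFun (tbFixO 𝔓 H) (tbFixRes 𝔓 H) f ∈ tbBarF 𝔓 N
  /-- (A4): orthonormal bases -/
  cart : ∀ W : Submodule ↥(tbFix 𝔓 H) ↥(tbLevF 𝔓 N H), FiniteDimensional ↥(tbFix 𝔓 H) ↥W →
    ∃ (n : ℕ) (b : Fin n → ↥(tbLevF 𝔓 N H)),
      (∀ i, TbGauss (tbFixO 𝔓 H) (tbFixRes 𝔓 H) (b i : LaurentSeries ↥(tbFix 𝔓 H))) ∧
      Submodule.span ↥(tbFix 𝔓 H) (Set.range b) = W ∧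
      LinearIndependent (IsLocalRing.ResidueField ↥𝔓.P)
        (fun i => tbRhoFun (tbFixO 𝔓 H) (tbFixRes 𝔓 H) (b i : LaurentSeries ↥(tbFix 𝔓 H)))
  /-- (A3) at the finite part -/
  int1 : ∀ (f : ↥(tbLevF 𝔓 N H))
    (hf : TbGauss (tbFixO 𝔓 H) (tbFixRes 𝔓 H) (f : LaurentSeries ↥(tbFix 𝔓 H))),
    IsIntegral ↥(Algebra.adjoin ↥(tbFix 𝔓 H) {tbLevJ 𝔓 N H}) f →
    IsIntegral ↥(Algebra.adjoin (IsLocalRing.ResidueField ↥𝔓.P) {tbBarJ 𝔓 N})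
      (⟨tbRhoFun (tbFixO 𝔓 H) (tbFixRes 𝔓 H) (f : LaurentSeries ↥(tbFix 𝔓 H)),
        range _ f.2 hf⟩ : ↥(tbBarF 𝔓 N))
  /-- (A3) at infinity -/
  int2 : ∀ (f : ↥(tbLevF 𝔓 N H))
    (hf : TbGauss (tbFixO 𝔓 H) (tbFixRes 𝔓 H) (f : LaurentSeries ↥(tbFix 𝔓 H))),
    IsIntegral ↥(Algebra.adjoin ↥(tbFix 𝔓 H) {(tbLevJ 𝔓 N H)⁻¹}) f →
    IsIntegral ↥(Algebra.adjoin (IsLocalRing.ResidueField ↥𝔓.P) {(tbBarJ 𝔓 N)⁻¹})
      (⟨tbRhoFun (tbFixO 𝔓 H) (tbFixRes 𝔓 H) (f : LaurentSeries ↥(tbFix 𝔓 H)),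
        range _ f.2 hf⟩ : ↥(tbBarF 𝔓 N))

end Fermat.Agent.T1
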