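/-
T1-B (helper9): the Gauss normal form of an element of the function field `F_N` of `X₀(N)` over
`ℚ̄` with respect to a valuation subring `A ⊂ ℚ̄`:  `f = c · a / b` with `c ∈ ℚ̄ˣ` and
`a, b ∈ F_N ∩ A((q))` whose coefficientwise reductions are nonzero elements of
`F̄_N = κ(j̄(q^d) : d ∣ N)`.
-/
import Mathlib
import Fermat.Prelude.Def_ModularCurve_ReductionModL

set_option autoImplicit false
set_option synthInstance.maxHeartbeats 400000

namespace Fermat.Agent.T1

open ModularCurve HahnSeries

local notation "Qb" => AlgebraicClosure ℚ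

/-- the Gauss normal form of an element of `F_N` -/
def TsNormal (N : ℕ) [NeZero N] (A : ValuationSubring Qb)
    (f : ↥(modularFunctionFieldBar N)) (c : Qb) (a b : LaurentSeries ↥A) : Prop :=
  c ≠ 0 ∧ coeffMap A.subtype a ∈ modularFunctionFieldBar N ∧
    coeffMap A.subtype b ∈ modularFunctionFieldBar N ∧
    coeffMap (IsLocalRing.residue ↥A) a ∈
      modularFunctionFieldFullC (IsLocalRing.ResidueField ↥A) N ∧
    coeffMap (IsLocalRing.residue ↥A) b ∈
      modularFunctionFieldFullC (IsLocalRing.ResidueField ↥A) N ∧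
    coeffMap (IsLocalRing.residue ↥A) a ≠ 0 ∧ coeffMap (IsLocalRing.residue ↥A) b ≠ 0 ∧
    (f : LaurentSeries Qb) * coeffMap A.subtype b =
      algebraMap Qb (LaurentSeries Qb) c * coeffMap A.subtype a

theorem ts_coeffMap_subtype_ne_zero {A : ValuationSubring Qb} {a : LaurentSeries ↥A}
    (ha : coeffMap (IsLocalRing.residue ↥A) a ≠ 0) : coeffMap A.subtype a ≠ 0 := by
  intro h0
  apply ha
  have : a = 0 := by
    apply HahnSeries.ext
    funext n
    have h1 := congrArg (fun s : LaurentSeries Qb => s.coeff n) h0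
    simp only [coeffMap_coeff, HahnSeries.coeff_zero] at h1
    exact A.subtype_injective (h1.trans (map_zero _).symm)
  rw [this, map_zero]

end Fermat.Agent.T1
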