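/-
T1-B (helper9): from the finite levels `(L_H, O_H)` to `(ℚ̄, A = 𝔓)`, part 1:
* a function of level `H` which is Gauss over `A` is Gauss over `O_H` (`tbq_gauss_descend`);
* reductions of Gauss functions of `F_N` lie in `F̄_N` (`tbq_range`);
* the Gauss normal form over `(ℚ̄, A)` (`tbq_normalForm`).
-/
import Fermat.Agent.Lib.T1.Inst.Level
import Fermat.Agent.Lib.T1.Inst.Normal

set_option autoImplicit false
set_option linter.style.haveILetI false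
set_option linter.unusedSectionVars false
set_option synthInstance.maxHeartbeats 400000

open HahnSeries ModularCurve Fermat.Agent.TW Fermat.Agent.S05Lib

noncomputable section

namespace Fermat.Agent.T1

local notation "Qb" => AlgebraicClosure ℚ

variable (𝔓 : FFPlace) (N : ℕ) [NeZero N] (H : Subgroup 𝔓.I)

/-- the map `L_H((q)) → ℚ̄((q))` -/
abbrev tbPhi : LaurentSeries ↥(tbFix 𝔓 H) →+* LaurentSeries Qb :=
  coeffMap (algebraMap ↥(tbFix 𝔓 H) Qb)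

theorem tbPhi_injective : Function.Injective (tbPhi 𝔓 H) := tbd_coeffMap_injective

theorem tbFixIncl_coe (a : ↥(tbFixO 𝔓 H)) :
    ((tbFixIncl 𝔓 H a : ↥𝔓.P) : Qb) = algebraMap ↥(tbFix 𝔓 H) Qb (a : ↥(tbFix 𝔓 H)) := rfl

theorem tbFixRes_eq (a : ↥(tbFixO 𝔓 H)) :
    IsLocalRing.residue ↥𝔓.P (tbFixIncl 𝔓 H a) = tbFixRes 𝔓 H a := rfl

/-- `inc` commutes with going up -/
theorem tbPhi_inc (s : LaurentSeries ↥(tbFixO 𝔓 H)) :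
    tbInc 𝔓.P (coeffMap (tbFixIncl 𝔓 H) s) = tbPhi 𝔓 H (tbInc (tbFixO 𝔓 H) s) :=
  tbInc_map (tbFixO 𝔓 H) 𝔓.P (algebraMap ↥(tbFix 𝔓 H) Qb) (tbFixIncl 𝔓 H) (tbFixIncl_coe 𝔓 H) s

/-- `red` commutes with going up -/
theorem tbPhi_red (s : LaurentSeries ↥(tbFixO 𝔓 H)) :
    tbRed (IsLocalRing.residue ↥𝔓.P) (coeffMap (tbFixIncl 𝔓 H) s) = tbRed (tbFixRes 𝔓 H) s :=
  tbRed_map (tbFixO 𝔓 H) (tbFixRes 𝔓 H) 𝔓.P (IsLocalRing.residue ↥𝔓.P) (tbFixIncl 𝔓 H)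
    (tbFixRes_eq 𝔓 H) s

theorem tbPhi_gauss {f : LaurentSeries ↥(tbFix 𝔓 H)}
    (hf : TbGauss (tbFixO 𝔓 H) (tbFixRes 𝔓 H) f) :
    TbGauss 𝔓.P (IsLocalRing.residue ↥𝔓.P) (tbPhi 𝔓 H f) :=
  TbGauss.map (tbFixO 𝔓 H) (tbFixRes 𝔓 H) 𝔓.P (IsLocalRing.residue ↥𝔓.P)
    (algebraMap ↥(tbFix 𝔓 H) Qb) (tbFixIncl 𝔓 H) (tbFixIncl_coe 𝔓 H) (tbFixRes_eq 𝔓 H) hf

theorem tbPhi_rho {f : LaurentSeries ↥(tbFix 𝔓 H)}
    (hf : TbGauss (tbFixO 𝔓 H) (tbFixRes 𝔓 H) f) :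
    tbRhoFun 𝔓.P (IsLocalRing.residue ↥𝔓.P) (tbPhi 𝔓 H f) =
      tbRhoFun (tbFixO 𝔓 H) (tbFixRes 𝔓 H) f :=
  tbRhoFun_map (tbFixO 𝔓 H) (tbFixRes 𝔓 H) 𝔓.P (IsLocalRing.residue ↥𝔓.P)
    (algebraMap ↥(tbFix 𝔓 H) Qb) (tbFixIncl 𝔓 H) (tbFixIncl_coe 𝔓 H) (tbFixRes_eq 𝔓 H) hf

theorem tbPhi_C (c : ↥(tbFix 𝔓 H)) :
    tbPhi 𝔓 H (HahnSeries.C c) = HahnSeries.C (c : Qb) := by
  rw [HahnSeries.C_apply, coeffMap_single, HahnSeries.C_apply]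
  rfl

theorem tbPhi_mem {f : LaurentSeries ↥(tbFix 𝔓 H)} (hf : f ∈ tbLevF 𝔓 N H) :
    tbPhi 𝔓 H f ∈ modularFunctionFieldBar N :=
  tbd_coeffMap_mem (modularFunctionFieldFull N) hf

/-- nonunits of `O_H` reduce to zero -/
theorem tbFixRes_eq_zero_of_inv_notMem {c : ↥(tbFix 𝔓 H)} (hc : c⁻¹ ∉ tbFixO 𝔓 H)
    (hcO : c ∈ tbFixO 𝔓 H) : tbFixRes 𝔓 H ⟨c, hcO⟩ = 0 := by
  show IsLocalRing.residue ↥𝔓.P (tbFixIncl 𝔓 H ⟨c, hcO⟩) = 0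
  rw [IsLocalRing.residue_eq_zero_iff, IsLocalRing.mem_maximalIdeal, mem_nonunits_iff]
  intro hu
  apply hc
  obtain ⟨u, hu⟩ := hu
  have h1 : ((u⁻¹ : (↥𝔓.P)ˣ) : ↥𝔓.P) * tbFixIncl 𝔓 H ⟨c, hcO⟩ = 1 := by
    rw [← hu]; exact u.inv_mul
  have h2 := congrArg (Subtype.val : ↥𝔓.P → Qb) h1
  rw [MulMemClass.coe_mul, tbFixIncl_coe] at h2
  have h3 : algebraMap ↥(tbFix 𝔓 H) Qb c⁻¹ = (((u⁻¹ : (↥𝔓.P)ˣ) : ↥𝔓.P) : Qb) := by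
    rw [map_inv₀]
    apply inv_eq_of_mul_eq_one_left
    exact h2
  show c⁻¹ ∈ 𝔓.P.comap (algebraMap ↥(tbFix 𝔓 H) Qb)
  rw [ValuationSubring.mem_comap, h3]
  exact Subtype.mem _

variable {𝔓 N H}

/-- a function of level `H` which is Gauss over `A` is Gauss over `O_H` -/
theorem tbq_gauss_descend (hOK : TbLevelOK 𝔓 N H) {f : LaurentSeries ↥(tbFix 𝔓 H)}
    (hf : f ∈ tbLevF 𝔓 N H)
    (hg : TbGauss 𝔓.P (IsLocalRing.residue ↥𝔓.P) (tbPhi 𝔓 H f)) :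
    TbGauss (tbFixO 𝔓 H) (tbFixRes 𝔓 H) f := by
  rcases eq_or_ne f 0 with rfl | hf0
  · exact (tbGaussSubring _ _).zero_mem
  obtain ⟨c, a, b, hc, haF, hbF, ha0, hb0, hrel⟩ := hOK.nf f hf hf0
  by_cases hcO : c ∈ tbFixO 𝔓 H
  · refine ⟨HahnSeries.C ⟨c, hcO⟩ * a, b, hb0, ?_⟩
    rw [hrel, map_mul, tbInc_C]
  · exfalso
    have hci : c⁻¹ ∈ tbFixO 𝔓 H := ((tbFixO 𝔓 H).mem_or_inv_mem c).resolve_left hcO
    have hcinv : (c⁻¹)⁻¹ ∉ tbFixO 𝔓 H := by rwa [inv_inv]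
    have hres : tbFixRes 𝔓 H ⟨c⁻¹, hci⟩ = 0 := tbFixRes_eq_zero_of_inv_notMem 𝔓 H hcinv hci
    obtain ⟨g, h, hh, e⟩ := hg
    -- `C(c⁻¹) · g · b' = a' · h` in `A((q))`
    have key : HahnSeries.C (tbFixIncl 𝔓 H ⟨c⁻¹, hci⟩) * g * coeffMap (tbFixIncl 𝔓 H) b =
        coeffMap (tbFixIncl 𝔓 H) a * h := by
      apply tbInc_injective 𝔓.P
      rw [map_mul, map_mul, map_mul, tbPhi_inc, tbPhi_inc, tbInc_C, ← e]
      have h1 : tbPhi 𝔓 H f * tbPhi 𝔓 H (tbInc (tbFixO 𝔓 H) b) =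
          HahnSeries.C (c : Qb) * tbPhi 𝔓 H (tbInc (tbFixO 𝔓 H) a) := by
        rw [← map_mul, hrel, map_mul, tbPhi_C]
      have h2 : ((tbFixIncl 𝔓 H ⟨c⁻¹, hci⟩ : ↥𝔓.P) : Qb) = (c : Qb)⁻¹ := by
        rw [tbFixIncl_coe]
        exact map_inv₀ _ _
      have hc' : (HahnSeries.C (c : Qb) : LaurentSeries Qb) ≠ 0 := by
        rw [Ne, map_eq_zero]
        exact fun h0 => hc (Subtype.ext h0)
      rw [h2, map_inv₀]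
      have h3 : (HahnSeries.C (c : Qb) : LaurentSeries Qb)⁻¹ *
          (tbPhi 𝔓 H f * tbInc 𝔓.P h) * tbPhi 𝔓 H (tbInc (tbFixO 𝔓 H) b) =
          (HahnSeries.C (c : Qb) : LaurentSeries Qb)⁻¹ *
            (tbPhi 𝔓 H f * tbPhi 𝔓 H (tbInc (tbFixO 𝔓 H) b)) * tbInc 𝔓.P h := by ring
      rw [h3, h1]
      field_simp
    have key2 := congrArg (tbRed (IsLocalRing.residue ↥𝔓.P)) key
    rw [map_mul, map_mul, map_mul, tbRed_C, tbFixRes_eq, hres, map_zero, zero_mul, zero_mul,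
      tbPhi_red] at key2
    exact mul_ne_zero ha0 hh key2.symm

/-- **reductions of modular functions are modular functions** -/
theorem tbq_range (hOK : ∀ H : Subgroup 𝔓.I, H.FiniteIndex → TbLevelOK 𝔓 N H)
    {f : LaurentSeries Qb} (hf : f ∈ modularFunctionFieldBar N)
    (hg : TbGauss 𝔓.P (IsLocalRing.residue ↥𝔓.P) f) :
    tbRhoFun 𝔓.P (IsLocalRing.residue ↥𝔓.P) f ∈ tbBarF 𝔓 N := by
  obtain ⟨H, hH, -, hT⟩ := tbd_exists_level (modularFunctionFieldFull N) 𝔓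
    ({()} : Finset Unit) (fun _ => f) (fun _ _ => hf) ∅
  obtain ⟨fH, hfH, rfl⟩ := hT () (Finset.mem_singleton_self _)
  have hgH := tbq_gauss_descend (hOK H hH) hfH hg
  rw [tbPhi_rho 𝔓 H hgH]
  exact (hOK H hH).range fH hfH hgH

/-- **the Gauss normal form over `(ℚ̄, A)`** -/
theorem tbq_normalForm (hOK : ∀ H : Subgroup 𝔓.I, H.FiniteIndex → TbLevelOK 𝔓 N H)
    (f : ↥(modularFunctionFieldBar N)) (hf0 : f ≠ 0) :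
    ∃ (c : Qb) (a b : LaurentSeries ↥𝔓.P), TsNormal N 𝔓.P f c a b := by
  obtain ⟨H, hH, -, hT⟩ := tbd_exists_level (modularFunctionFieldFull N) 𝔓
    ({()} : Finset Unit) (fun _ => (f : LaurentSeries Qb)) (fun _ _ => f.2) ∅
  obtain ⟨fH, hfH, hfHf⟩ := hT () (Finset.mem_singleton_self _)
  have hfH0 : fH ≠ 0 := by
    rintro rfl
    rw [map_zero] at hfHf
    exact hf0 (Subtype.ext hfHf.symm)
  obtain ⟨c, a, b, hc, haF, hbF, ha0, hb0, hrel⟩ := (hOK H hH).nf fH hfH hfH0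
  have hra : tbRed (IsLocalRing.residue ↥𝔓.P) (coeffMap (tbFixIncl 𝔓 H) a) ∈ tbBarF 𝔓 N := by
    rw [tbPhi_red, ← tbRho_inc (tbFixO 𝔓 H) (tbFixRes 𝔓 H) a]
    exact (hOK H hH).range _ haF (tbGauss_inc _ _ a)
  have hrb : tbRed (IsLocalRing.residue ↥𝔓.P) (coeffMap (tbFixIncl 𝔓 H) b) ∈ tbBarF 𝔓 N := by
    rw [tbPhi_red, ← tbRho_inc (tbFixO 𝔓 H) (tbFixRes 𝔓 H) b]
    exact (hOK H hH).range _ hbF (tbGauss_inc _ _ b)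
  refine ⟨(c : Qb), coeffMap (tbFixIncl 𝔓 H) a, coeffMap (tbFixIncl 𝔓 H) b,
    fun h0 => hc (Subtype.ext h0), ?_, ?_, hra, hrb, ?_, ?_, ?_⟩
  · show tbInc 𝔓.P _ ∈ _
    rw [tbPhi_inc]
    exact tbPhi_mem 𝔓 N H haF
  · show tbInc 𝔓.P _ ∈ _
    rw [tbPhi_inc]
    exact tbPhi_mem 𝔓 N H hbF
  · show tbRed (IsLocalRing.residue ↥𝔓.P) _ ≠ 0
    rwa [tbPhi_red]
  · show tbRed (IsLocalRing.residue ↥𝔓.P) _ ≠ 0
    rwa [tbPhi_red]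
  · show (f : LaurentSeries Qb) * tbInc 𝔓.P _ = _ * tbInc 𝔓.P _
    rw [tbPhi_inc, tbPhi_inc, ← hfHf, ← map_mul, hrel, map_mul, tbPhi_C,
      algebraMap_laurentSeries_eq_single, HahnSeries.C_apply]

end Fermat.Agent.T1
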