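/-
T1-B (helper9): from the finite levels to `(ℚ̄, A)`, part 2: (Cart).

* `tbq_orthonormal`: Gauss functions with linearly independent residues are orthonormal
  (over any valuation ring);
* `tbq_cart`: the unit ball of a finite-dimensional subspace of `F_N` is a finitely generated
  `A`-module.
-/
import Fermat.Agent.Lib.T1.Inst.LevelUp

set_option autoImplicit false
set_option linter.style.haveILetI false
set_option linter.unusedSectionVars false
set_option synthInstance.maxHeartbeats 400000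

open HahnSeries ModularCurve Fermat.Agent.TW Fermat.Agent.S05Lib

noncomputable section

namespace Fermat.Agent.T1

local notation "Qb" => AlgebraicClosure ℚ

section Ortho

variable {K : Type*} [Field K] (A : ValuationSubring K)

/-- elements of `A` whose inverse is not in `A` reduce to `0` -/
theorem tbq_residue_eq_zero {e : K} (he : e ∈ A) (hei : e⁻¹ ∉ A) :
    IsLocalRing.residue ↥A ⟨e, he⟩ = 0 := by
  rw [IsLocalRing.residue_eq_zero_iff, IsLocalRing.mem_maximalIdeal, mem_nonunits_iff]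
  intro hu
  apply hei
  obtain ⟨u, hu⟩ := hu
  have h1 : ((u⁻¹ : (↥A)ˣ) : ↥A) * ⟨e, he⟩ = 1 := by
    rw [← hu]; exact u.inv_mul
  have h2 := congrArg (Subtype.val : ↥A → K) h1
  rw [MulMemClass.coe_mul] at h2
  have h3 : e⁻¹ = (((u⁻¹ : (↥A)ˣ) : ↥A) : K) := inv_eq_of_mul_eq_one_left h2
  rw [h3]
  exact Subtype.mem _

/-- **orthonormality**: if the residues of the Gauss functions `B i` are linearly independent
and `∑ c i · B i` is a Gauss function, then all `c i` are integral -/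
theorem tbq_orthonormal {n : ℕ} (B : Fin n → LaurentSeries K)
    (hB : ∀ i, TbGauss A (IsLocalRing.residue ↥A) (B i))
    (hind : LinearIndependent (IsLocalRing.ResidueField ↥A)
      (fun i => tbRhoFun A (IsLocalRing.residue ↥A) (B i)))
    (c : Fin n → K)
    (hf : TbGauss A (IsLocalRing.residue ↥A) (∑ i, HahnSeries.C (c i) * B i)) :
    ∀ i, c i ∈ A := by
  classical
  by_contra hcon
  push Not at hcon
  obtain ⟨i₁, hi₁⟩ := hcon
  obtain ⟨i₀, -, hmax⟩ := Finset.exists_max_image Finset.univ (fun i => A.valuation (c i))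
    ⟨i₁, Finset.mem_univ _⟩
  have hv1 : 1 < A.valuation (c i₁) := by
    rw [← not_le, A.valuation_le_one_iff]; exact hi₁
  have hv0 : 1 < A.valuation (c i₀) := lt_of_lt_of_le hv1 (hmax i₁ (Finset.mem_univ _))
  have hc0 : c i₀ ≠ 0 := by
    intro h0
    rw [h0, map_zero] at hv0
    exact not_lt.mpr zero_le_one hv0
  have hpos : 0 < A.valuation (c i₀) := lt_trans zero_lt_one hv0
  have hd : ∀ i, c i / c i₀ ∈ A := by
    intro i
    rw [← A.valuation_le_one_iff, map_div₀, div_le_one₀ hpos]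
    exact hmax i (Finset.mem_univ _)
  have he : (c i₀)⁻¹ ∈ A := by
    rw [← A.valuation_le_one_iff, map_inv₀]
    exact inv_le_one_of_one_le₀ hv0.le
  have hei : ((c i₀)⁻¹)⁻¹ ∉ A := by
    rw [inv_inv, ← A.valuation_le_one_iff, not_le]; exact hv0
  have hres : IsLocalRing.residue ↥A ⟨(c i₀)⁻¹, he⟩ = 0 := tbq_residue_eq_zero A he hei
  -- the scaled combination
  have hsum : HahnSeries.C ((c i₀)⁻¹) * ∑ i, HahnSeries.C (c i) * B i =
      ∑ i, HahnSeries.C (c i / c i₀) * B i := by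
    rw [Finset.mul_sum]
    refine Finset.sum_congr rfl fun i _ => ?_
    rw [← mul_assoc, ← map_mul, inv_mul_eq_div]
  -- residue of the left hand side
  have h1 : tbRhoFun A (IsLocalRing.residue ↥A)
      (HahnSeries.C ((c i₀)⁻¹) * ∑ i, HahnSeries.C (c i) * B i) = 0 := by
    rw [tbRhoFun_mul A _ (tbGauss_C A _ ⟨_, he⟩) hf, tbRhoFun_C A _ ⟨_, he⟩, hres, map_zero,
      zero_mul]
  -- residue of the right hand side
  have h2 : tbRhoFun A (IsLocalRing.residue ↥A) (∑ i, HahnSeries.C (c i / c i₀) * B i) =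
      ∑ i, IsLocalRing.residue ↥A ⟨c i / c i₀, hd i⟩ •
        tbRhoFun A (IsLocalRing.residue ↥A) (B i) := by
    have h3 : (∑ i, HahnSeries.C (c i / c i₀) * B i) =
        ((∑ i, (⟨HahnSeries.C (c i / c i₀), tbGauss_C A _ ⟨_, hd i⟩⟩ :
          ↥(tbGaussSubring A (IsLocalRing.residue ↥A))) * ⟨B i, hB i⟩ :
          ↥(tbGaussSubring A (IsLocalRing.residue ↥A))) : LaurentSeries K) := by
      rw [AddSubmonoidClass.coe_finsetSum]
      rfl
    rw [h3, ← tbRho_apply, map_sum]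
    refine Finset.sum_congr rfl fun i _ => ?_
    rw [map_mul, tbRho_apply, tbRho_apply, tbRhoFun_C A _ ⟨_, hd i⟩, HahnSeries.C_mul_eq_smul]
  rw [hsum, h2] at h1
  have h4 := Fintype.linearIndependent_iff.mp hind _ h1 i₀
  have h5 : (⟨c i₀ / c i₀, hd i₀⟩ : ↥A) = 1 := Subtype.ext (div_self hc0)
  rw [h5, map_one] at h4
  exact one_ne_zero h4

end Ortho

variable (𝔓 : FFPlace) (N : ℕ) [NeZero N] (H : Subgroup 𝔓.I)

/-- the map `F_H → F_N` -/
def tbPhiF : ↥(tbLevF 𝔓 N H) →+* ↥(modularFunctionFieldBar N) :=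
  ((tbPhi 𝔓 H).comp (tbLevF 𝔓 N H).val.toRingHom).codRestrict
    (modularFunctionFieldBar N).toSubring (fun f => tbPhi_mem 𝔓 N H f.2)

theorem coe_tbPhiF (f : ↥(tbLevF 𝔓 N H)) :
    ((tbPhiF 𝔓 N H f : ↥(modularFunctionFieldBar N)) : LaurentSeries Qb) =
      tbPhi 𝔓 H (f : LaurentSeries ↥(tbFix 𝔓 H)) := rfl

theorem tbPhiF_injective : Function.Injective (tbPhiF 𝔓 N H) := by
  intro f g h
  apply Subtype.ext
  apply tbPhi_injective 𝔓 H
  have := congrArg (Subtype.val : ↥(modularFunctionFieldBar N) → LaurentSeries Qb) h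
  exact this

/-- scalar multiplication in an intermediate field of `K((q))`, as a product -/
theorem tbq_coe_smul {K : Type*} [Field K] (E : IntermediateField K (LaurentSeries K)) (c : K)
    (s : ↥E) : ((c • s : ↥E) : LaurentSeries K) = HahnSeries.C c * (s : LaurentSeries K) := by
  rw [Algebra.smul_def, MulMemClass.coe_mul, HahnSeries.C_apply,
    ← algebraMap_laurentSeries_eq_single]
  rfl

theorem tbPhiF_smul (l : ↥(tbFix 𝔓 H)) (f : ↥(tbLevF 𝔓 N H)) :
    tbPhiF 𝔓 N H (l • f) = (l : Qb) • tbPhiF 𝔓 N H f := by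
  apply Subtype.ext
  rw [coe_tbPhiF, tbq_coe_smul, tbq_coe_smul, map_mul, tbPhi_C, coe_tbPhiF]

/-- spans go up -/
theorem tbPhiF_mem_span {ι : Type*} (w : ι → ↥(tbLevF 𝔓 N H)) {x : ↥(tbLevF 𝔓 N H)}
    (hx : x ∈ Submodule.span ↥(tbFix 𝔓 H) (Set.range w)) :
    tbPhiF 𝔓 N H x ∈ Submodule.span Qb (Set.range fun i => tbPhiF 𝔓 N H (w i)) := by
  induction hx using Submodule.span_induction with
  | mem y hy =>
    obtain ⟨i, rfl⟩ := hy
    exact Submodule.subset_span ⟨i, rfl⟩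
  | zero => rw [map_zero]; exact Submodule.zero_mem _
  | add x y _ _ hx hy => rw [map_add]; exact Submodule.add_mem _ hx hy
  | smul l x _ hx => rw [tbPhiF_smul]; exact Submodule.smul_mem _ _ hx

variable {𝔓 N}

/-- **(Cart) over `(ℚ̄, A)`** -/
theorem tbq_cart (hOK : ∀ H : Subgroup 𝔓.I, H.FiniteIndex → TbLevelOK 𝔓 N H)
    (W : Submodule Qb ↥(modularFunctionFieldBar N)) [FiniteDimensional Qb ↥W] :
    ∃ S : Finset ↥(modularFunctionFieldBar N),
      (∀ s ∈ S, s ∈ W ∧ TbGauss 𝔓.P (IsLocalRing.residue ↥𝔓.P) (s : LaurentSeries Qb)) ∧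
      ∀ f ∈ W, TbGauss 𝔓.P (IsLocalRing.residue ↥𝔓.P) (f : LaurentSeries Qb) →
        ∃ c : ↥(modularFunctionFieldBar N) → ↥𝔓.P, f = ∑ s ∈ S, ((c s : ↥𝔓.P) : Qb) • s := by
  classical
  set wb := Module.finBasis Qb ↥W with hwb
  set n0 := Module.finrank Qb ↥W with hn0
  -- descend the basis
  obtain ⟨H, hH, -, hT⟩ := tbd_exists_level (modularFunctionFieldFull N) 𝔓
    (Finset.univ : Finset (Fin n0))
    (fun i => (((wb i : ↥W) : ↥(modularFunctionFieldBar N)) : LaurentSeries Qb))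
    (fun i _ => ((wb i : ↥W) : ↥(modularFunctionFieldBar N)).2) ∅
  choose w' hw'F hw' using fun i => hT i (Finset.mem_univ i)
  set wH : Fin n0 → ↥(tbLevF 𝔓 N H) := fun i => ⟨w' i, hw'F i⟩ with hwH
  have hwHw : ∀ i, tbPhiF 𝔓 N H (wH i) = ((wb i : ↥W) : ↥(modularFunctionFieldBar N)) :=
    fun i => Subtype.ext (hw' i)
  set WH : Submodule ↥(tbFix 𝔓 H) ↥(tbLevF 𝔓 N H) :=
    Submodule.span ↥(tbFix 𝔓 H) (Set.range wH) with hWH
  haveI : FiniteDimensional ↥(tbFix 𝔓 H) ↥WH :=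
    FiniteDimensional.span_of_finite _ (Set.finite_range wH)
  obtain ⟨n, b, hbG, hspan, hind⟩ := (hOK H hH).cart WH inferInstance
  set B : Fin n → ↥(modularFunctionFieldBar N) := fun i => tbPhiF 𝔓 N H (b i) with hB
  have hBG : ∀ i, TbGauss 𝔓.P (IsLocalRing.residue ↥𝔓.P) ((B i : ↥(modularFunctionFieldBar N)) :
      LaurentSeries Qb) := fun i => tbPhi_gauss 𝔓 H (hbG i)
  have hBrho : ∀ i, tbRhoFun 𝔓.P (IsLocalRing.residue ↥𝔓.P)
      ((B i : ↥(modularFunctionFieldBar N)) : LaurentSeries Qb) =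
      tbRhoFun (tbFixO 𝔓 H) (tbFixRes 𝔓 H) (b i : LaurentSeries ↥(tbFix 𝔓 H)) :=
    fun i => tbPhi_rho 𝔓 H (hbG i)
  have hBind : LinearIndependent (IsLocalRing.ResidueField ↥𝔓.P)
      (fun i => tbRhoFun 𝔓.P (IsLocalRing.residue ↥𝔓.P)
        ((B i : ↥(modularFunctionFieldBar N)) : LaurentSeries Qb)) := by
    have : (fun i => tbRhoFun 𝔓.P (IsLocalRing.residue ↥𝔓.P)
        ((B i : ↥(modularFunctionFieldBar N)) : LaurentSeries Qb)) =
        fun i => tbRhoFun (tbFixO 𝔓 H) (tbFixRes 𝔓 H) (b i : LaurentSeries ↥(tbFix 𝔓 H)) :=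
      funext hBrho
    rw [this]
    exact hind
  have hBinj : Function.Injective B := by
    intro i j hij
    apply hBind.injective
    show tbRhoFun 𝔓.P _ _ = tbRhoFun 𝔓.P _ _
    rw [hij]
  -- `B i ∈ W`
  have hBW : ∀ i, B i ∈ W := by
    intro i
    have h1 : b i ∈ Submodule.span ↥(tbFix 𝔓 H) (Set.range wH) := by
      rw [← hWH, ← hspan]
      exact Submodule.subset_span ⟨i, rfl⟩
    have h2 := tbPhiF_mem_span 𝔓 N H wH h1
    refine (Submodule.span_le.mpr ?_) h2
    rintro _ ⟨j, rfl⟩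
    show tbPhiF 𝔓 N H (wH j) ∈ W
    rw [hwHw]
    exact (wb j).2
  -- `W ⊆ span B`
  have hWB : ∀ f ∈ W, f ∈ Submodule.span Qb (Set.range B) := by
    intro f hf
    have h1 : (⟨f, hf⟩ : ↥W) = ∑ i, wb.repr ⟨f, hf⟩ i • wb i := (wb.sum_repr ⟨f, hf⟩).symm
    have h2 : f = ∑ i, wb.repr ⟨f, hf⟩ i • ((wb i : ↥W) : ↥(modularFunctionFieldBar N)) := by
      have := congrArg (Subtype.val : ↥W → ↥(modularFunctionFieldBar N)) h1
      rw [AddSubmonoidClass.coe_finsetSum] at this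
      exact this
    rw [h2]
    refine Submodule.sum_mem _ fun i _ => Submodule.smul_mem _ _ ?_
    rw [← hwHw]
    have h3 : wH i ∈ Submodule.span ↥(tbFix 𝔓 H) (Set.range b) := by
      rw [hspan, hWH]
      exact Submodule.subset_span ⟨i, rfl⟩
    exact tbPhiF_mem_span 𝔓 N H b h3
  refine ⟨Finset.univ.image B, ?_, ?_⟩
  · intro s hs
    obtain ⟨i, -, rfl⟩ := Finset.mem_image.mp hs
    exact ⟨hBW i, hBG i⟩
  · intro f hfW hfG
    obtain ⟨c, hc⟩ := (Submodule.mem_span_range_iff_exists_fun Qb).mp (hWB f hfW)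
    have hfsum : (f : LaurentSeries Qb) = ∑ i, HahnSeries.C (c i) *
        ((B i : ↥(modularFunctionFieldBar N)) : LaurentSeries Qb) := by
      rw [← hc, AddSubmonoidClass.coe_finsetSum]
      refine Finset.sum_congr rfl fun i _ => ?_
      rw [tbq_coe_smul]
    have hcA : ∀ i, c i ∈ 𝔓.P := by
      refine tbq_orthonormal 𝔓.P (fun i => ((B i : ↥(modularFunctionFieldBar N)) :
        LaurentSeries Qb)) hBG hBind c ?_
      rw [← hfsum]
      exact hfG
    set ct : ↥(modularFunctionFieldBar N) → ↥𝔓.P :=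
      fun s => if h : ∃ i, B i = s then ⟨c h.choose, hcA _⟩ else 0 with hct
    have hctB : ∀ i, ct (B i) = ⟨c i, hcA i⟩ := by
      intro i
      have hex : ∃ j, B j = B i := ⟨i, rfl⟩
      have h1 : ct (B i) = ⟨c hex.choose, hcA _⟩ := dif_pos hex
      have h2 : hex.choose = i := hBinj hex.choose_spec
      rw [h1]
      exact Subtype.ext (congrArg c h2)
    refine ⟨ct, ?_⟩
    rw [Finset.sum_image (fun i _ j _ hij => hBinj hij), ← hc]
    refine Finset.sum_congr rfl fun i _ => ?_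
    rw [hctB i]

end Fermat.Agent.T1
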