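/-
T1-B (helper9): from the finite levels to `(ℚ̄, A)`, part 3: (Int).

If `f ∈ F_N` is a Gauss function which is integral over `ℚ̄[j]` (resp. `ℚ̄[j⁻¹]`), then its
reduction is integral over `κ[j̄]` (resp. `κ[j̄⁻¹]`).  Proof: the integrality relation has finitely
many coefficients, hence descends to a finite level.
-/
import Fermat.Agent.Lib.T1.Inst.CartUp

set_option autoImplicit false
set_option linter.style.haveILetI false
set_option linter.unusedSectionVars false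
set_option synthInstance.maxHeartbeats 400000

open HahnSeries ModularCurve Fermat.Agent.TW Fermat.Agent.S05Lib Polynomial

noncomputable section

namespace Fermat.Agent.T1

local notation "Qb" => AlgebraicClosure ℚ

section Algebra

variable {K F : Type*} [Field K] [Field F] [Algebra K F]

/-- integrality over `K[x]` as an explicit relation -/
theorem tbq_isIntegral_adjoin_iff (x f : F) :
    IsIntegral ↥(Algebra.adjoin K {x}) f ↔
      ∃ (n : ℕ) (q : Fin n → K[X]),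
        f ^ n + ∑ i : Fin n, Polynomial.aeval x (q i) * f ^ (i : ℕ) = 0 := by
  constructor
  · rintro ⟨p, hmonic, hp⟩
    have hcoeff : ∀ i : ℕ, ∃ q : K[X], Polynomial.aeval x q = ((p.coeff i : ↥(Algebra.adjoin K {x})) : F) := by
      intro i
      have h1 : ((p.coeff i : ↥(Algebra.adjoin K {x})) : F) ∈ Algebra.adjoin K {x} := Subtype.mem _
      have h2 : ((p.coeff i : ↥(Algebra.adjoin K {x})) : F) ∈ (Polynomial.aeval (R := K) x).range := by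
        rw [← Algebra.adjoin_singleton_eq_range_aeval]
        exact h1
      exact h2
    choose q hq using hcoeff
    refine ⟨p.natDegree, fun i => q i, ?_⟩
    rw [Polynomial.eval₂_eq_sum_range, Finset.sum_range_succ, hmonic.coeff_natDegree, map_one,
      one_mul, Finset.sum_range] at hp
    rw [add_comm, ← hp]
    congr 1
    refine Finset.sum_congr rfl fun i _ => ?_
    rw [hq]
    rfl
  · rintro ⟨n, q, hrel⟩
    set r : Fin n → ↥(Algebra.adjoin K {x}) := fun i => ⟨Polynomial.aeval x (q i), by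
      rw [Algebra.adjoin_singleton_eq_range_aeval]
      exact ⟨q i, rfl⟩⟩ with hr
    refine ⟨X ^ n + ∑ i : Fin n, Polynomial.C (r i) * X ^ (i : ℕ),
      Polynomial.monic_X_pow_add (Polynomial.degree_sum_fin_lt r), ?_⟩
    rw [Polynomial.eval₂_add, Polynomial.eval₂_pow, Polynomial.eval₂_X,
      Polynomial.eval₂_finsetSum, ← hrel]
    congr 1
    refine Finset.sum_congr rfl fun i _ => ?_
    rw [Polynomial.eval₂_mul, Polynomial.eval₂_C, Polynomial.eval₂_pow, Polynomial.eval₂_X]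
    rfl

end Algebra

variable (𝔓 : FFPlace) (N : ℕ) [NeZero N] (H : Subgroup 𝔓.I)

theorem tbPhiF_algebraMap (l : ↥(tbFix 𝔓 H)) :
    tbPhiF 𝔓 N H (algebraMap ↥(tbFix 𝔓 H) ↥(tbLevF 𝔓 N H) l) =
      algebraMap Qb ↥(modularFunctionFieldBar N) (l : Qb) := by
  have h1 := tbPhiF_smul 𝔓 N H l 1
  rw [Algebra.smul_def, mul_one, map_one, Algebra.smul_def, mul_one] at h1
  exact h1

theorem tbPhiF_aeval (y : ↥(tbLevF 𝔓 N H)) (p : (↥(tbFix 𝔓 H))[X]) :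
    tbPhiF 𝔓 N H (Polynomial.aeval y p) =
      Polynomial.aeval (tbPhiF 𝔓 N H y) (p.map (algebraMap ↥(tbFix 𝔓 H) Qb)) := by
  rw [Polynomial.aeval_def, Polynomial.aeval_def, Polynomial.hom_eval₂, Polynomial.eval₂_map]
  congr 1
  apply RingHom.ext
  intro l
  exact tbPhiF_algebraMap 𝔓 N H l

/-- `j` in `F_N` -/
def tbJ : ↥(modularFunctionFieldBar N) :=
  ⟨jqModC Qb, by
    change _ ∈ laurentBaseChange Qb (modularFunctionFieldFull N)
    rw [tbi_laurentBaseChange_full]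
    exact jqModC_mem_full _ N⟩

theorem coe_tbJ : ((tbJ N : ↥(modularFunctionFieldBar N)) : LaurentSeries Qb) = jqModC Qb := rfl

theorem tbPhiF_tbLevJ : tbPhiF 𝔓 N H (tbLevJ 𝔓 N H) = tbJ N := by
  apply Subtype.ext
  rw [coe_tbPhiF]
  exact coeffMap_jqModC _

variable {𝔓 N}

/-- descent of an integrality relation to a finite level -/
theorem tbq_exists_level_isIntegral (x f : ↥(modularFunctionFieldBar N))
    (hint : IsIntegral ↥(Algebra.adjoin Qb {x}) f) :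
    ∃ H : Subgroup 𝔓.I, H.FiniteIndex ∧ ∃ fH : ↥(tbLevF 𝔓 N H), tbPhiF 𝔓 N H fH = f ∧
      ∀ xH : ↥(tbLevF 𝔓 N H), tbPhiF 𝔓 N H xH = x →
        IsIntegral ↥(Algebra.adjoin ↥(tbFix 𝔓 H) {xH}) fH := by
  classical
  obtain ⟨n, q, hrel⟩ := (tbq_isIntegral_adjoin_iff x f).mp hint
  obtain ⟨H, hH, hS, hT⟩ := tbd_exists_level (modularFunctionFieldFull N) 𝔓
    ({()} : Finset Unit) (fun _ => (f : LaurentSeries Qb)) (fun _ _ => f.2)
    (Finset.univ.biUnion fun i => (q i).coeffs)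
  obtain ⟨fH', hfH', hfHf⟩ := hT () (Finset.mem_singleton_self _)
  refine ⟨H, hH, ⟨fH', hfH'⟩, Subtype.ext hfHf, fun xH hxH => ?_⟩
  have hlift : ∀ i, ∃ q' : (↥(tbFix 𝔓 H))[X], q'.map (algebraMap ↥(tbFix 𝔓 H) Qb) = q i := by
    intro i
    rw [← Polynomial.mem_lifts, Polynomial.lifts_iff_coeffs_subset_range]
    intro a ha
    have : a ∈ tbFix 𝔓 H := hS a (Finset.mem_biUnion.mpr ⟨i, Finset.mem_univ _, ha⟩)
    exact ⟨⟨a, this⟩, rfl⟩
  choose q' hq' using hlift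
  rw [tbq_isIntegral_adjoin_iff]
  refine ⟨n, q', ?_⟩
  apply tbPhiF_injective 𝔓 N H
  rw [map_zero, map_add, map_pow, map_sum, ← hrel]
  have hf' : tbPhiF 𝔓 N H ⟨fH', hfH'⟩ = f := Subtype.ext hfHf
  rw [hf']
  congr 1
  refine Finset.sum_congr rfl fun i _ => ?_
  rw [map_mul, map_pow, tbPhiF_aeval, hq', hxH, hf']

/-- **(Int) at the finite part, over `(ℚ̄, A)`** -/
theorem tbq_int1 (hOK : ∀ H : Subgroup 𝔓.I, H.FiniteIndex → TbLevelOK 𝔓 N H)
    (f : ↥(modularFunctionFieldBar N))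
    (hf : TbGauss 𝔓.P (IsLocalRing.residue ↥𝔓.P) (f : LaurentSeries Qb))
    (hint : IsIntegral ↥(Algebra.adjoin Qb {tbJ N}) f) :
    IsIntegral ↥(Algebra.adjoin (IsLocalRing.ResidueField ↥𝔓.P) {tbBarJ 𝔓 N})
      (⟨tbRhoFun 𝔓.P (IsLocalRing.residue ↥𝔓.P) (f : LaurentSeries Qb),
        tbq_range hOK f.2 hf⟩ : ↥(tbBarF 𝔓 N)) := by
  obtain ⟨H, hH, fH, hfH, hint'⟩ := tbq_exists_level_isIntegral (𝔓 := 𝔓) (tbJ N) f hint
  have hfH' : tbPhi 𝔓 H (fH : LaurentSeries ↥(tbFix 𝔓 H)) = (f : LaurentSeries Qb) := by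
    rw [← coe_tbPhiF, hfH]
  have hg : TbGauss (tbFixO 𝔓 H) (tbFixRes 𝔓 H) (fH : LaurentSeries ↥(tbFix 𝔓 H)) :=
    tbq_gauss_descend (hOK H hH) fH.2 (by rw [hfH']; exact hf)
  have h1 := (hOK H hH).int1 fH hg (hint' _ (tbPhiF_tbLevJ 𝔓 N H))
  have h2 : (⟨tbRhoFun 𝔓.P (IsLocalRing.residue ↥𝔓.P) (f : LaurentSeries Qb),
      tbq_range hOK f.2 hf⟩ : ↥(tbBarF 𝔓 N)) =
      ⟨tbRhoFun (tbFixO 𝔓 H) (tbFixRes 𝔓 H) (fH : LaurentSeries ↥(tbFix 𝔓 H)),
        (hOK H hH).range _ fH.2 hg⟩ := by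
    apply Subtype.ext
    show tbRhoFun 𝔓.P _ _ = tbRhoFun (tbFixO 𝔓 H) _ _
    rw [← hfH', tbPhi_rho 𝔓 H hg]
  rw [h2]
  exact h1

/-- **(Int) at infinity, over `(ℚ̄, A)`** -/
theorem tbq_int2 (hOK : ∀ H : Subgroup 𝔓.I, H.FiniteIndex → TbLevelOK 𝔓 N H)
    (f : ↥(modularFunctionFieldBar N))
    (hf : TbGauss 𝔓.P (IsLocalRing.residue ↥𝔓.P) (f : LaurentSeries Qb))
    (hint : IsIntegral ↥(Algebra.adjoin Qb {(tbJ N)⁻¹}) f) :
    IsIntegral ↥(Algebra.adjoin (IsLocalRing.ResidueField ↥𝔓.P) {(tbBarJ 𝔓 N)⁻¹})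
      (⟨tbRhoFun 𝔓.P (IsLocalRing.residue ↥𝔓.P) (f : LaurentSeries Qb),
        tbq_range hOK f.2 hf⟩ : ↥(tbBarF 𝔓 N)) := by
  obtain ⟨H, hH, fH, hfH, hint'⟩ := tbq_exists_level_isIntegral (𝔓 := 𝔓) (tbJ N)⁻¹ f hint
  have hfH' : tbPhi 𝔓 H (fH : LaurentSeries ↥(tbFix 𝔓 H)) = (f : LaurentSeries Qb) := by
    rw [← coe_tbPhiF, hfH]
  have hg : TbGauss (tbFixO 𝔓 H) (tbFixRes 𝔓 H) (fH : LaurentSeries ↥(tbFix 𝔓 H)) :=
    tbq_gauss_descend (hOK H hH) fH.2 (by rw [hfH']; exact hf)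
  have h1 := (hOK H hH).int2 fH hg (hint' _ (by rw [map_inv₀, tbPhiF_tbLevJ]))
  have h2 : (⟨tbRhoFun 𝔓.P (IsLocalRing.residue ↥𝔓.P) (f : LaurentSeries Qb),
      tbq_range hOK f.2 hf⟩ : ↥(tbBarF 𝔓 N)) =
      ⟨tbRhoFun (tbFixO 𝔓 H) (tbFixRes 𝔓 H) (fH : LaurentSeries ↥(tbFix 𝔓 H)),
        (hOK H hH).range _ fH.2 hg⟩ := by
    apply Subtype.ext
    show tbRhoFun 𝔓.P _ _ = tbRhoFun (tbFixO 𝔓 H) _ _
    rw [← hfH', tbPhi_rho 𝔓 H hg]
  rw [h2]
  exact h1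

end Fermat.Agent.T1
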