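/-
T1-B (helper9): the conversion  T1-A CORE (helper6: `taResN_range`, `ta_res_int_fin/inf`, `ta_cart`,
normal form) ⟹ the finite-level interface `TbLevelOK 𝔓 N H` of `Inst/Level.lean`, for every level
`N` prime to the residue characteristic and every finite-index subgroup `H` of the inertia group.
-/
import Fermat.Agent.Lib.T1.Inst.Level
import Fermat.Agent.Lib.T1.Inst.IntUp
import Fermat.Agent.Lib.T1.GoodRed.Core
import Fermat.Agent.Lib.T1.GoodRed.BarField
import Fermat.Agent.Lib.T1.Inst.ResAlgClosed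
import Fermat.Agent.Lib.T1.Kron.Rep

set_option autoImplicit false
set_option linter.style.haveILetI false
set_option linter.unusedSectionVars false
set_option synthInstance.maxHeartbeats 400000

open HahnSeries ModularCurve Fermat.Agent.TW Fermat.Agent.S05Lib Polynomial

noncomputable section

namespace Fermat.Agent.T1

local notation "Qb" => AlgebraicClosure ℚ

section Generic

variable {L : Type*} [Field L] (O : ValuationSubring L) {k : Type*} [Field k] (π : ↥O →+* k)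

/-- the two residue functions agree -/
theorem tbf_rhoFun_eq (f : LaurentSeries L) : tbRhoFun O π f = taRhoFun O π f := by
  by_cases hf : TbGauss O π f
  · obtain ⟨g, h, hh, e⟩ := hf
    rw [tbRhoFun_eq O π hh e, taRhoFun_eq O π hh e]
    rfl
  · have hf' : ¬ TaGauss O π f := hf
    rw [tbRhoFun, dif_neg hf, taRhoFun, dif_neg hf']

end Generic

section Level

variable {L : Type*} [Field L] [Algebra ℚ L] (O : ValuationSubring L) {k : Type*} [Field k]
  (π : ↥O →+* k) [IsDiscreteValuationRing ↥O] (hπ : Function.Surjective π) (N : ℕ) [NeZero N]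

theorem tbf_taResN_eq (f : ↥(taOv O π hπ N)) :
    taResN O π hπ N f = tbRhoFun O π (((f : ↥(TaF L N)) : LaurentSeries L)) := by
  rw [tbf_rhoFun_eq]
  rfl

include hπ in
/-- **the Gauss normal form with numerator and denominator in `F`** -/
theorem tbf_nf (f : LaurentSeries L) (hf : f ∈ TaF L N) (hf0 : f ≠ 0) :
    ∃ (c : L) (a b : LaurentSeries ↥O), c ≠ 0 ∧ tbInc O a ∈ TaF L N ∧ tbInc O b ∈ TaF L N ∧
      tbRed π a ≠ 0 ∧ tbRed π b ≠ 0 ∧ f * tbInc O b = HahnSeries.C c * tbInc O a := by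
  obtain ⟨ϖ, hϖ⟩ := IsDiscreteValuationRing.exists_irreducible ↥O
  have hϖ0 : ((ϖ : ↥O) : L) ≠ 0 := ta_coe_unif_ne_zero hϖ
  -- the subring `F ∩ O((q))`
  set R : Subring (LaurentSeries L) := (TaF L N).toSubring ⊓ (tbInc O).range with hR
  have hCmem : ∀ c : L, (HahnSeries.C c : LaurentSeries L) ∈ TaF L N := by
    intro c
    have h := (TaF L N).algebraMap_mem c
    rwa [algebraMap_laurentSeries_eq_single, ← HahnSeries.C_apply] at h
  have hconst : ∀ c : L, algebraMap L (LaurentSeries L) c ∈ tbiFrac R := by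
    intro c
    rw [algebraMap_laurentSeries_eq_single, ← HahnSeries.C_apply]
    rcases O.mem_or_inv_mem c with hc | hc
    · apply tbi_le_tbiFrac
      exact ⟨hCmem c, ⟨HahnSeries.C ⟨c, hc⟩, tbInc_C O ⟨c, hc⟩⟩⟩
    · have h1 : (HahnSeries.C c⁻¹ : LaurentSeries L) ∈ tbiFrac R := by
        apply tbi_le_tbiFrac
        exact ⟨hCmem c⁻¹, ⟨HahnSeries.C ⟨c⁻¹, hc⟩, tbInc_C O ⟨c⁻¹, hc⟩⟩⟩
      have h2 := inv_mem h1
      rwa [← map_inv₀, inv_inv] at h2
  have hj : ∀ (d : ℕ) [NeZero d], d ∣ N → qExpand L d (jqModC L) ∈ R := by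
    intro d _ hd
    refine ⟨jqModCd_mem_taF N hd, ⟨qExpand ↥O d (jqModC ↥O), ?_⟩⟩
    show taInc O (qExpand ↥O d (jqModC ↥O)) = _
    rw [taInc_qExpand, taInc_jqModC]
  have hf' : f ∈ modularFunctionFieldFullC L N := by
    rw [← tbi_laurentBaseChange_full]
    exact hf
  obtain ⟨a', ⟨ha'F, a₁, rfl⟩, b', ⟨hb'F, b₁, rfl⟩, hb'0, hrel⟩ :=
    tbi_fullC_le_frac L N R hconst hj hf'
  have hb₁0 : b₁ ≠ 0 := by
    rintro rfl
    exact hb'0 (map_zero _)
  have ha₁0 : a₁ ≠ 0 := by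
    rintro rfl
    rw [map_zero] at hrel
    exact (mul_ne_zero hf0 hb'0) hrel
  obtain ⟨m, a, ha, rfl⟩ := ta_exists_pow_mul_primitive (π := π) hπ hϖ ha₁0
  obtain ⟨m', b, hb, rfl⟩ := ta_exists_pow_mul_primitive (π := π) hπ hϖ hb₁0
  have hCϖ : (HahnSeries.C ((ϖ : ↥O) : L) : LaurentSeries L) ≠ 0 := ta_C_unif_ne_zero hϖ
  have hinc : ∀ (n : ℕ) (s : LaurentSeries ↥O),
      tbInc O (HahnSeries.C ϖ ^ n * s) = HahnSeries.C ((ϖ : ↥O) : L) ^ n * tbInc O s := by
    intro n s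
    rw [map_mul, map_pow, tbInc_C]
  rw [hinc] at ha'F hb'F hrel
  rw [hinc] at hrel
  have hmemF : ∀ (n : ℕ) (s : LaurentSeries ↥O),
      HahnSeries.C ((ϖ : ↥O) : L) ^ n * tbInc O s ∈ TaF L N → tbInc O s ∈ TaF L N := by
    intro n s h
    have h1 := mul_mem (inv_mem (pow_mem (hCmem ((ϖ : ↥O) : L)) n)) h
    rwa [← mul_assoc, inv_mul_cancel₀ (pow_ne_zero n hCϖ), one_mul] at h1
  refine ⟨((ϖ : ↥O) : L) ^ m / ((ϖ : ↥O) : L) ^ m', a, b,
    div_ne_zero (pow_ne_zero m hϖ0) (pow_ne_zero m' hϖ0), hmemF m a ha'F, hmemF m' b hb'F, ha, hb,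
    ?_⟩
  have h3 : f * tbInc O b = (HahnSeries.C ((ϖ : ↥O) : L) ^ m')⁻¹ *
      (HahnSeries.C ((ϖ : ↥O) : L) ^ m * tbInc O a) := by
    rw [← hrel]
    field_simp
  rw [h3, map_div₀, map_pow, map_pow]
  field_simp

variable [IsAlgClosed k]

include hπ in
/-- (A1) in the shape of `TbLevelOK.range` -/
theorem tbf_range (hN : (N : k) ≠ 0) (f : LaurentSeries L) (hf : f ∈ TaF L N)
    (hG : TbGauss O π f) : tbRhoFun O π f ∈ modularFunctionFieldFullC k N := by
  have h := taResN_mem_full O π hπ N hN ⟨⟨f, hf⟩, hG⟩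
  rwa [tbf_taResN_eq] at h

include hπ in
/-- (A4) in the shape of `TbLevelOK.cart` -/
theorem tbf_cart (hN : (N : k) ≠ 0) (W : Submodule L ↥(TaF L N)) (hW : FiniteDimensional L ↥W) :
    ∃ (n : ℕ) (b : Fin n → ↥(TaF L N)),
      (∀ i, TbGauss O π (b i : LaurentSeries L)) ∧
      Submodule.span L (Set.range b) = W ∧
      LinearIndependent k (fun i => tbRhoFun O π (b i : LaurentSeries L)) := by
  obtain ⟨m, w, hw, -, -, hspan, -, hres⟩ := ta_cart O π hπ N hN W
  refine ⟨m, w, fun i => hw i, hspan, ?_⟩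
  rw [Fintype.linearIndependent_iff]
  intro γ hγ
  refine hres γ ?_
  rw [← hγ]
  refine Finset.sum_congr rfl fun i _ => ?_
  rw [HahnSeries.C_mul_eq_smul, tbf_taResN_eq]

/-- transfer of integrality between `k((q))` and an intermediate field -/
theorem tbf_isIntegral_coe {K : Type*} [Field K] (E : IntermediateField K (LaurentSeries K))
    (x t : ↥E) :
    IsIntegral ↥(Algebra.adjoin K {x}) t ↔
      IsIntegral ↥(Algebra.adjoin K {(x : LaurentSeries K)}) (t : LaurentSeries K) := by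
  rw [tbq_isIntegral_adjoin_iff, tbq_isIntegral_adjoin_iff]
  have key : ∀ (n : ℕ) (q : Fin n → K[X]),
      ((t ^ n + ∑ i : Fin n, Polynomial.aeval x (q i) * t ^ (i : ℕ) : ↥E) : LaurentSeries K) =
        (t : LaurentSeries K) ^ n +
          ∑ i : Fin n, Polynomial.aeval (x : LaurentSeries K) (q i) * (t : LaurentSeries K) ^ (i : ℕ) := by
    intro n q
    rw [AddMemClass.coe_add, SubmonoidClass.coe_pow, AddSubmonoidClass.coe_finsetSum]
    congr 1
    refine Finset.sum_congr rfl fun i _ => ?_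
    rw [MulMemClass.coe_mul, SubmonoidClass.coe_pow, ← IntermediateField.aeval_coe]
  constructor
  · rintro ⟨n, q, h⟩
    refine ⟨n, q, ?_⟩
    rw [← key, h]
    rfl
  · rintro ⟨n, q, h⟩
    refine ⟨n, q, Subtype.ext ?_⟩
    rw [key, h]
    rfl

include hπ in
/-- (A3), chart `j`, in the shape of `TbLevelOK.int1` -/
theorem tbf_int1 (hN : (N : k) ≠ 0) (f : ↥(TaF L N)) (hG : TbGauss O π (f : LaurentSeries L))
    (hint : IsIntegral ↥(Algebra.adjoin L {taJ (L := L) N}) f) :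
    IsIntegral ↥(Algebra.adjoin k {taBarJ k N})
      (⟨tbRhoFun O π (f : LaurentSeries L), tbf_range O π hπ N hN _ f.2 hG⟩ : TaBar k N) := by
  rw [tbf_isIntegral_coe]
  have h := ta_res_int_fin O π hπ N hN ⟨f, hG⟩ hint
  rwa [tbf_taResN_eq] at h

include hπ in
/-- (A3), chart `1/j`, in the shape of `TbLevelOK.int2` -/
theorem tbf_int2 (hN : (N : k) ≠ 0) (f : ↥(TaF L N)) (hG : TbGauss O π (f : LaurentSeries L))
    (hint : IsIntegral ↥(Algebra.adjoin L {(taJ (L := L) N)⁻¹}) f) :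
    IsIntegral ↥(Algebra.adjoin k {(taBarJ k N)⁻¹})
      (⟨tbRhoFun O π (f : LaurentSeries L), tbf_range O π hπ N hN _ f.2 hG⟩ : TaBar k N) := by
  rw [tbf_isIntegral_coe]
  have h := ta_res_int_inf O π hπ N hN ⟨f, hG⟩ hint
  rwa [tbf_taResN_eq] at h

end Level

/-! ### The instance -/

section Inst

variable (𝔓 : FFPlace) (N : ℕ) [NeZero N] (H : Subgroup 𝔓.I) [H.FiniteIndex]

/-- **the good-reduction interface at a finite level** -/
theorem tbq_levelOK (hN : ¬ 𝔓.p ∣ N) : TbLevelOK 𝔓 N H := by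
  haveI : IsDiscreteValuationRing ↥(tbFixO 𝔓 H) := tbFixO_dvr 𝔓 H
  haveI : IsAlgClosed (IsLocalRing.ResidueField ↥𝔓.P) := tb_isAlgClosed_residueField 𝔓.P
  have hπ := tbFixRes_surjective 𝔓 H
  have hNk : ((N : ℕ) : IsLocalRing.ResidueField ↥𝔓.P) ≠ 0 := by
    haveI : CharP (IsLocalRing.ResidueField ↥𝔓.P) 𝔓.p := tkr_charP_residue 𝔓.hp 𝔓.hP
    intro h
    exact hN ((CharP.cast_eq_zero_iff (IsLocalRing.ResidueField ↥𝔓.P) 𝔓.p N).mp h)
  exact
    { nf := fun f hf hf0 => tbf_nf (tbFixO 𝔓 H) (tbFixRes 𝔓 H) hπ N f hf hf0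
      range := fun f hf hG => tbf_range (tbFixO 𝔓 H) (tbFixRes 𝔓 H) hπ N hNk f hf hG
      cart := fun W hW => tbf_cart (tbFixO 𝔓 H) (tbFixRes 𝔓 H) hπ N hNk W hW
      int1 := fun f hf hint => tbf_int1 (tbFixO 𝔓 H) (tbFixRes 𝔓 H) hπ N hNk f hf hint
      int2 := fun f hf hint => tbf_int2 (tbFixO 𝔓 H) (tbFixRes 𝔓 H) hπ N hNk f hf hint }

end Inst

end Fermat.Agent.T1
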