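/-
T1-B (helper9): (LIFT) for S18: every nonzero element of `F̄_N = κ(j̄(q^d) : d ∣ N)` is the
reduction `ā / b̄` of a quotient `a / b` of elements of `F_N ∩ A((q))` with reductions in `F̄_N`.
Pure algebra (fraction field of the subring of reductions).
-/
import Fermat.Agent.Lib.T1.Inst.Normal
import Fermat.Agent.Lib.T1.Inst.FullC

set_option autoImplicit false
set_option linter.style.haveILetI false
set_option linter.unusedSectionVars false
set_option synthInstance.maxHeartbeats 400000

namespace Fermat.Agent.T1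

open ModularCurve AlgebraicCurve HahnSeries

local notation "Qb" => AlgebraicClosure ℚ

noncomputable section

variable (N : ℕ) [NeZero N] (A : ValuationSubring Qb)

/-- the ring of integral modular functions with modular reduction -/
def tsIntRing : Subring (LaurentSeries ↥A) :=
  (modularFunctionFieldBar N).toSubring.comap (coeffMap A.subtype) ⊓
    (modularFunctionFieldFullC (IsLocalRing.ResidueField ↥A) N).toSubring.comap
      (coeffMap (IsLocalRing.residue ↥A))

theorem mem_tsIntRing (a : LaurentSeries ↥A) :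
    a ∈ tsIntRing N A ↔ coeffMap A.subtype a ∈ modularFunctionFieldBar N ∧
      coeffMap (IsLocalRing.residue ↥A) a ∈
        modularFunctionFieldFullC (IsLocalRing.ResidueField ↥A) N := Iff.rfl

theorem ts_C_mem_tsIntRing (a : ↥A) : HahnSeries.C a ∈ tsIntRing N A := by
  rw [mem_tsIntRing, HahnSeries.C_apply, coeffMap_single, coeffMap_single,
    ← algebraMap_laurentSeries_eq_single, ← algebraMap_laurentSeries_eq_single]
  exact ⟨(modularFunctionFieldBar N).algebraMap_mem _,
    (modularFunctionFieldFullC (IsLocalRing.ResidueField ↥A) N).algebraMap_mem _⟩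

theorem ts_jqd_mem_tsIntRing (d : ℕ) [NeZero d] (hd : d ∣ N) :
    qExpand ↥A d (jqModC ↥A) ∈ tsIntRing N A := by
  rw [mem_tsIntRing, coeffMap_qExpand, coeffMap_qExpand, coeffMap_jqModC, coeffMap_jqModC]
  refine ⟨?_, jqModCd_mem_full _ N hd⟩
  change _ ∈ laurentBaseChange Qb (modularFunctionFieldFull N)
  rw [tbi_laurentBaseChange_full]
  exact jqModCd_mem_full _ N hd

/-- **(LIFT)** -/
theorem ts_lift (gb : ↥(modularFunctionFieldFullC (IsLocalRing.ResidueField ↥A) N))
    (hgb : gb ≠ 0) :
    ∃ (g : ↥(modularFunctionFieldBar N)) (c : Qb) (a b : LaurentSeries ↥A),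
      TsNormal N A g c a b ∧
      (gb : LaurentSeries (IsLocalRing.ResidueField ↥A)) *
        coeffMap (IsLocalRing.residue ↥A) b = coeffMap (IsLocalRing.residue ↥A) a := by
  set Rb : Subring (LaurentSeries (IsLocalRing.ResidueField ↥A)) :=
    (tsIntRing N A).map (coeffMap (IsLocalRing.residue ↥A)) with hRb
  have hmem : (gb : LaurentSeries (IsLocalRing.ResidueField ↥A)) ∈ tbiFrac Rb := by
    refine tbi_fullC_le_frac (IsLocalRing.ResidueField ↥A) N Rb ?_ ?_ gb.2
    · intro c
      obtain ⟨a, rfl⟩ := IsLocalRing.residue_surjective c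
      apply tbi_le_tbiFrac
      refine ⟨HahnSeries.C a, ts_C_mem_tsIntRing N A a, ?_⟩
      rw [HahnSeries.C_apply, coeffMap_single, algebraMap_laurentSeries_eq_single]
    · intro d _ hd
      refine ⟨qExpand ↥A d (jqModC ↥A), ts_jqd_mem_tsIntRing N A d hd, ?_⟩
      rw [coeffMap_qExpand, coeffMap_jqModC]
  obtain ⟨_, ⟨a, ha, rfl⟩, _, ⟨b, hb, rfl⟩, hb0, hrel⟩ := hmem
  have ha0 : coeffMap (IsLocalRing.residue ↥A) a ≠ 0 := by
    rw [← hrel]
    exact mul_ne_zero (fun h => hgb (Subtype.ext h)) hb0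
  have hb0' : coeffMap A.subtype b ≠ 0 := ts_coeffMap_subtype_ne_zero hb0
  refine ⟨⟨coeffMap A.subtype a, ha.1⟩ * (⟨coeffMap A.subtype b, hb.1⟩ :
    ↥(modularFunctionFieldBar N))⁻¹, 1, a, b,
    ⟨one_ne_zero, ha.1, hb.1, ha.2, hb.2, ha0, hb0, ?_⟩, hrel⟩
  rw [map_one, one_mul]
  change coeffMap A.subtype a * (coeffMap A.subtype b)⁻¹ * coeffMap A.subtype b = _
  rw [mul_assoc, inv_mul_cancel₀ hb0', mul_one]

end

end Fermat.Agent.T1
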