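/-
T1-B (helper9): the residue field of a valuation subring of an algebraically closed field is
algebraically closed.
-/
import Mathlib

set_option autoImplicit false

namespace Fermat.Agent.T1

open Polynomial

theorem tb_isAlgClosed_residueField {K : Type*} [Field K] [IsAlgClosed K]
    (A : ValuationSubring K) : IsAlgClosed (IsLocalRing.ResidueField ↥A) := by
  apply IsAlgClosed.of_exists_root
  intro p hmonic hirr
  have hlift : p ∈ Polynomial.lifts (IsLocalRing.residue ↥A) := by
    rw [Polynomial.mem_lifts]
    exact Polynomial.map_surjective _ IsLocalRing.residue_surjective p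
  obtain ⟨q, hqp, hqdeg, hqmonic⟩ := Polynomial.lifts_and_degree_eq_and_monic hlift hmonic
  have hdeg : (q.map (algebraMap ↥A K)).degree ≠ 0 := by
    rw [Polynomial.degree_map_eq_of_injective (FaithfulSMul.algebraMap_injective ↥A K), hqdeg]
    exact (Polynomial.degree_pos_of_irreducible hirr).ne'
  obtain ⟨α, hα⟩ := IsAlgClosed.exists_root (q.map (algebraMap ↥A K)) hdeg
  have hint : IsIntegral ↥A α := by
    refine ⟨q, hqmonic, ?_⟩
    rw [← Polynomial.eval_map]
    exact hα
  obtain ⟨a, rfl⟩ := IsIntegrallyClosed.isIntegral_iff.mp hint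
  refine ⟨IsLocalRing.residue ↥A a, ?_⟩
  have h1 : Polynomial.eval a q = 0 := by
    apply FaithfulSMul.algebraMap_injective ↥A K
    have hα' : Polynomial.eval (algebraMap ↥A K a) (q.map (algebraMap ↥A K)) = 0 := hα
    rw [map_zero, ← hα', Polynomial.eval_map, Polynomial.eval₂_at_apply]
  rw [← hqp, Polynomial.eval_map, Polynomial.eval₂_at_apply, h1, map_zero]

end Fermat.Agent.T1
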