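/-
T1-B (helper9): the valuation-theoretic base `(ℚ̄, A) ⊂ (F_N, 𝒪_v)` of CORE' for the modular
function field, assembled from the finite-level interface `TbLevelOK`, and **K1**:

`tb_K1`: if `y ∈ F_N`, `m ∣ div y`, `m` prime to `ℓ`, and `y = a / b` with `a, b ∈ A((q))`,
`ā = b̄ ≠ 0`, then `y` is an `m`-th power in `F_N` — provided `F̄_N / κ(j̄)` is a separable
function field of the same degree as `F_N / ℚ̄(j)` and `genus F_N ≤ genus F̄_N`.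
-/
import Fermat.Agent.Lib.T1.Inst.IntUp
import Fermat.Agent.Lib.T1.Inst.Lift
import Fermat.Agent.Lib.T1.Inst.ResAlgClosed
import Fermat.Agent.Lib.T1.Core.CoreFF

set_option autoImplicit false
set_option linter.style.haveILetI false
set_option linter.unusedSectionVars false
set_option synthInstance.maxHeartbeats 400000

open HahnSeries ModularCurve Fermat.Agent.TW Fermat.Agent.S05Lib AlgebraicCurve
  Fermat.Agent.Curve IntermediateField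

noncomputable section

namespace Fermat.Agent.T1

local notation "Qb" => AlgebraicClosure ℚ

variable (𝔓 : FFPlace) (N : ℕ) [NeZero N]

/-- the Gauss ring of `F_N` over `(ℚ̄, A)` -/
def tbOvQ : Subring ↥(modularFunctionFieldBar N) where
  carrier := {f | TbGauss 𝔓.P (IsLocalRing.residue ↥𝔓.P) (f : LaurentSeries Qb)}
  mul_mem' := fun {_ _} hf hg => (tbGaussSubring 𝔓.P (IsLocalRing.residue ↥𝔓.P)).mul_mem hf hg
  one_mem' := (tbGaussSubring 𝔓.P (IsLocalRing.residue ↥𝔓.P)).one_mem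
  add_mem' := fun {_ _} hf hg => (tbGaussSubring 𝔓.P (IsLocalRing.residue ↥𝔓.P)).add_mem hf hg
  zero_mem' := (tbGaussSubring 𝔓.P (IsLocalRing.residue ↥𝔓.P)).zero_mem
  neg_mem' := fun {_} hf => (tbGaussSubring 𝔓.P (IsLocalRing.residue ↥𝔓.P)).neg_mem hf

theorem mem_tbOvQ (f : ↥(modularFunctionFieldBar N)) :
    f ∈ tbOvQ 𝔓 N ↔ TbGauss 𝔓.P (IsLocalRing.residue ↥𝔓.P) (f : LaurentSeries Qb) := Iff.rfl

variable {𝔓 N}

/-- the reduction map `𝒪_v → F̄_N` -/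
def tbResQ (hOK : ∀ H : Subgroup 𝔓.I, H.FiniteIndex → TbLevelOK 𝔓 N H) :
    ↥(tbOvQ 𝔓 N) →+* ↥(tbBarF 𝔓 N) where
  toFun f := ⟨tbRhoFun 𝔓.P (IsLocalRing.residue ↥𝔓.P)
    ((f : ↥(modularFunctionFieldBar N)) : LaurentSeries Qb), tbq_range hOK f.1.2 f.2⟩
  map_one' := Subtype.ext (tbRhoFun_one _ _)
  map_zero' := Subtype.ext (tbRhoFun_zero _ _)
  map_mul' f g := Subtype.ext (tbRhoFun_mul _ _ f.2 g.2)
  map_add' f g := Subtype.ext (tbRhoFun_add _ _ f.2 g.2)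

theorem coe_tbResQ (hOK : ∀ H : Subgroup 𝔓.I, H.FiniteIndex → TbLevelOK 𝔓 N H)
    (f : ↥(tbOvQ 𝔓 N)) :
    ((tbResQ hOK f : ↥(tbBarF 𝔓 N)) : LaurentSeries (IsLocalRing.ResidueField ↥𝔓.P)) =
      tbRhoFun 𝔓.P (IsLocalRing.residue ↥𝔓.P)
        ((f : ↥(modularFunctionFieldBar N)) : LaurentSeries Qb) := rfl

/-- a fraction `a / b` of integral series with `b̄ ≠ 0` lies in the Gauss ring, with residue
`ā / b̄` -/
theorem tbq_mem_of_frac {f : ↥(modularFunctionFieldBar N)} {a b : LaurentSeries ↥𝔓.P}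
    (hb : coeffMap (IsLocalRing.residue ↥𝔓.P) b ≠ 0)
    (hf : (f : LaurentSeries Qb) * coeffMap 𝔓.P.subtype b = coeffMap 𝔓.P.subtype a) :
    f ∈ tbOvQ 𝔓 N := ⟨a, b, hb, hf⟩

theorem tbResQ_of_frac (hOK : ∀ H : Subgroup 𝔓.I, H.FiniteIndex → TbLevelOK 𝔓 N H)
    {f : ↥(modularFunctionFieldBar N)} {a b : LaurentSeries ↥𝔓.P}
    (hb : coeffMap (IsLocalRing.residue ↥𝔓.P) b ≠ 0)
    (hf : (f : LaurentSeries Qb) * coeffMap 𝔓.P.subtype b = coeffMap 𝔓.P.subtype a) :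
    ((tbResQ hOK ⟨f, tbq_mem_of_frac hb hf⟩ : ↥(tbBarF 𝔓 N)) :
      LaurentSeries (IsLocalRing.ResidueField ↥𝔓.P)) =
      coeffMap (IsLocalRing.residue ↥𝔓.P) a / coeffMap (IsLocalRing.residue ↥𝔓.P) b :=
  tbRhoFun_eq 𝔓.P (IsLocalRing.residue ↥𝔓.P) hb hf

/-- **the base of CORE' for the modular function field** -/
def tbBaseQ (hOK : ∀ H : Subgroup 𝔓.I, H.FiniteIndex → TbLevelOK 𝔓 N H) :
    TbBase Qb ↥(modularFunctionFieldBar N) (IsLocalRing.ResidueField ↥𝔓.P) ↥(tbBarF 𝔓 N) where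
  A := 𝔓.P
  resA := IsLocalRing.residue ↥𝔓.P
  resA_surj := IsLocalRing.residue_surjective
  Ov := tbOvQ 𝔓 N
  res := tbResQ hOK
  res_surj := by
    intro t
    rcases eq_or_ne t 0 with rfl | ht
    · exact ⟨0, map_zero _⟩
    obtain ⟨g, c, a, b, ⟨hc, haF, hbF, hak, hbk, ha0, hb0, hfab⟩, hrel⟩ := ts_lift N 𝔓.P t ht
    have hf : ((c⁻¹ • g : ↥(modularFunctionFieldBar N)) : LaurentSeries Qb) *
        coeffMap 𝔓.P.subtype b = coeffMap 𝔓.P.subtype a := by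
      rw [tbq_coe_smul, mul_assoc, hfab, ← mul_assoc, HahnSeries.C_apply,
        ← algebraMap_laurentSeries_eq_single, ← map_mul, inv_mul_cancel₀ hc, map_one, one_mul]
    refine ⟨⟨c⁻¹ • g, tbq_mem_of_frac hb0 hf⟩, Subtype.ext ?_⟩
    rw [tbResQ_of_frac hOK hb0 hf, div_eq_iff hb0]
    exact hrel.symm
  algebraMap_mem := fun a => by
    rw [mem_tbOvQ]
    have h1 : ((algebraMap Qb ↥(modularFunctionFieldBar N) (a : Qb) :
        ↥(modularFunctionFieldBar N)) : LaurentSeries Qb) = HahnSeries.C (a : Qb) := by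
      rw [HahnSeries.C_apply, ← algebraMap_laurentSeries_eq_single]
      rfl
    rw [h1]
    exact tbGauss_C _ _ a
  res_algebraMap := fun a => by
    apply Subtype.ext
    rw [coe_tbResQ]
    have h1 : ((algebraMap Qb ↥(modularFunctionFieldBar N) (a : Qb) :
        ↥(modularFunctionFieldBar N)) : LaurentSeries Qb) = HahnSeries.C (a : Qb) := by
      rw [HahnSeries.C_apply, ← algebraMap_laurentSeries_eq_single]
      rfl
    show tbRhoFun 𝔓.P _ ((algebraMap Qb ↥(modularFunctionFieldBar N) (a : Qb) :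
      ↥(modularFunctionFieldBar N)) : LaurentSeries Qb) = _
    rw [h1, tbRhoFun_C, HahnSeries.C_apply, ← algebraMap_laurentSeries_eq_single]
    rfl
  normalize := fun f hf0 => by
    obtain ⟨c, a, b, hc, haF, hbF, hak, hbk, ha0, hb0, hfab⟩ := tbq_normalForm hOK f hf0
    have hf : ((c⁻¹ • f : ↥(modularFunctionFieldBar N)) : LaurentSeries Qb) *
        coeffMap 𝔓.P.subtype b = coeffMap 𝔓.P.subtype a := by
      rw [tbq_coe_smul, mul_assoc, hfab, ← mul_assoc, HahnSeries.C_apply,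
        ← algebraMap_laurentSeries_eq_single, ← map_mul, inv_mul_cancel₀ hc, map_one, one_mul]
    refine ⟨c⁻¹, inv_ne_zero hc, tbq_mem_of_frac hb0 hf, fun h0 => ?_⟩
    have h1 := congrArg (Subtype.val : ↥(tbBarF 𝔓 N) → LaurentSeries _) h0
    rw [tbResQ_of_frac hOK hb0 hf] at h1
    exact div_ne_zero ha0 hb0 h1
  arch := tb_arch 𝔓
  cart := fun W hW => by
    haveI := hW
    exact tbq_cart hOK W

/-- `j` is a Gauss unit with residue `j̄` -/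
theorem tbJ_mem_tbOvQ : tbJ N ∈ tbOvQ 𝔓 N := by
  refine tbq_mem_of_frac (a := jqModC ↥𝔓.P) (b := 1) ?_ ?_
  · rw [map_one]; exact one_ne_zero
  · rw [map_one, mul_one, coeffMap_jqModC]
    rfl

theorem tbResQ_tbJ (hOK : ∀ H : Subgroup 𝔓.I, H.FiniteIndex → TbLevelOK 𝔓 N H) :
    tbResQ hOK ⟨tbJ N, tbJ_mem_tbOvQ⟩ = tbBarJ 𝔓 N := by
  apply Subtype.ext
  have h1 : ((tbJ N : ↥(modularFunctionFieldBar N)) : LaurentSeries Qb) *
      coeffMap 𝔓.P.subtype 1 = coeffMap 𝔓.P.subtype (jqModC ↥𝔓.P) := by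
    rw [map_one, mul_one, coeffMap_jqModC]
    rfl
  have h2 : coeffMap (IsLocalRing.residue ↥𝔓.P) (1 : LaurentSeries ↥𝔓.P) ≠ 0 := by
    rw [map_one]; exact one_ne_zero
  rw [tbResQ_of_frac hOK h2 h1, map_one, div_one, coeffMap_jqModC]
  rfl

theorem tbJ_inv_mem_tbOvQ : (tbJ N)⁻¹ ∈ tbOvQ 𝔓 N := by
  have hj0 : jqModC (IsLocalRing.ResidueField ↥𝔓.P) ≠ 0 := jqModC_ne_zero_of_nontrivial _
  have hjQ : jqModC Qb ≠ 0 := jqModC_ne_zero_of_nontrivial _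
  refine tbq_mem_of_frac (a := 1) (b := jqModC ↥𝔓.P) ?_ ?_
  · rw [coeffMap_jqModC]; exact hj0
  · rw [map_one, coeffMap_jqModC]
    show (jqModC Qb)⁻¹ * jqModC Qb = 1
    exact inv_mul_cancel₀ hjQ

/-- **K1**: injectivity of reduction on the prime-to-`ℓ` part of the Kummer group -/
theorem tb_K1 (hOK : ∀ H : Subgroup 𝔓.I, H.FiniteIndex → TbLevelOK 𝔓 N H)
    {m : ℕ} (hm : Nat.Coprime m 𝔓.p)
    (hgen : IsFunctionFieldGen Qb ↥(modularFunctionFieldBar N) (tbJ N))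
    (hgenb : IsFunctionFieldGen (IsLocalRing.ResidueField ↥𝔓.P) ↥(tbBarF 𝔓 N) (tbBarJ 𝔓 N))
    [Algebra.IsSeparable ↥((IsLocalRing.ResidueField ↥𝔓.P)⟮tbBarJ 𝔓 N⟯) ↥(tbBarF 𝔓 N)]
    (hdeg : Module.finrank ↥(Qb⟮tbJ N⟯) ↥(modularFunctionFieldBar N) =
      Module.finrank ↥((IsLocalRing.ResidueField ↥𝔓.P)⟮tbBarJ 𝔓 N⟯) ↥(tbBarF 𝔓 N))
    (hgenus : CurveP.genusR Qb ↥(modularFunctionFieldBar N) ≤
      CurveP.genusR (IsLocalRing.ResidueField ↥𝔓.P) ↥(tbBarF 𝔓 N))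
    {y : ↥(modularFunctionFieldBar N)}
    (hdiv : ∀ v : Place Qb ↥(modularFunctionFieldBar N), (m : ℤ) ∣ v.ord y)
    {a b : LaurentSeries ↥𝔓.P} (hb : coeffMap (IsLocalRing.residue ↥𝔓.P) b ≠ 0)
    (hab : coeffMap (IsLocalRing.residue ↥𝔓.P) a = coeffMap (IsLocalRing.residue ↥𝔓.P) b)
    (hy : (y : LaurentSeries Qb) * coeffMap 𝔓.P.subtype b = coeffMap 𝔓.P.subtype a) :
    ∃ g : ↥(modularFunctionFieldBar N), g ^ m = y := by
  haveI : IsAlgClosed (IsLocalRing.ResidueField ↥𝔓.P) := tb_isAlgClosed_residueField 𝔓.P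
  haveI : Algebra.IsSeparable ↥(Qb⟮tbJ N⟯) ↥(modularFunctionFieldBar N) := by
    haveI := hgen.finite
    haveI : CharZero ↥(Qb⟮tbJ N⟯) :=
      charZero_of_injective_algebraMap (algebraMap Qb ↥(Qb⟮tbJ N⟯)).injective
    infer_instance
  have hres : (tbBaseQ hOK).res ⟨tbJ N, tbJ_mem_tbOvQ⟩ = tbBarJ 𝔓 N := tbResQ_tbJ hOK
  have hℓA : ((𝔓.p : ℕ) : Qb) ∈ (tbBaseQ hOK).A.nonunits := 𝔓.hP
  have hℓ0 : ((𝔓.p : ℕ) : Qb) ≠ 0 := by
    exact_mod_cast 𝔓.hp.ne_zero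
  have hyO : y ∈ (tbBaseQ hOK).Ov := tbq_mem_of_frac hb hy
  have hy1 : (tbBaseQ hOK).res ⟨y, hyO⟩ = 1 := by
    apply Subtype.ext
    show ((tbResQ hOK ⟨y, tbq_mem_of_frac hb hy⟩ : ↥(tbBarF 𝔓 N)) :
      LaurentSeries (IsLocalRing.ResidueField ↥𝔓.P)) = 1
    rw [tbResQ_of_frac hOK hb hy, hab, div_self hb]
  have key : ∀ xb : ↥(tbBarF 𝔓 N), xb = (tbBaseQ hOK).res ⟨tbJ N, tbJ_mem_tbOvQ⟩ →
      IsFunctionFieldGen (IsLocalRing.ResidueField ↥𝔓.P) ↥(tbBarF 𝔓 N) xb →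
      Algebra.IsSeparable ↥((IsLocalRing.ResidueField ↥𝔓.P)⟮xb⟯) ↥(tbBarF 𝔓 N) →
      Module.finrank ↥(Qb⟮tbJ N⟯) ↥(modularFunctionFieldBar N) =
        Module.finrank ↥((IsLocalRing.ResidueField ↥𝔓.P)⟮xb⟯) ↥(tbBarF 𝔓 N) →
      (∀ (f : ↥(modularFunctionFieldBar N)) (hf : f ∈ (tbBaseQ hOK).Ov),
        IsIntegral ↥(Algebra.adjoin Qb {tbJ N}) f →
        IsIntegral ↥(Algebra.adjoin (IsLocalRing.ResidueField ↥𝔓.P) {xb})
          ((tbBaseQ hOK).res ⟨f, hf⟩)) →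
      (∀ (f : ↥(modularFunctionFieldBar N)) (hf : f ∈ (tbBaseQ hOK).Ov),
        IsIntegral ↥(Algebra.adjoin Qb {(tbJ N)⁻¹}) f →
        IsIntegral ↥(Algebra.adjoin (IsLocalRing.ResidueField ↥𝔓.P) {xb⁻¹})
          ((tbBaseQ hOK).res ⟨f, hf⟩)) →
      ∃ g : ↥(modularFunctionFieldBar N), g ^ m = y := by
    intro xb hxb
    subst hxb
    intro h1 h2 h3 h4 h5
    haveI := h2
    exact tb_core_functionField (tbBaseQ hOK) 𝔓.hp hℓA hℓ0 hm hgen tbJ_mem_tbOvQ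
      tbJ_inv_mem_tbOvQ h1 h3 hgenus h4 h5 hyO hy1 hdiv
  exact key (tbBarJ 𝔓 N) hres.symm hgenb inferInstance hdeg
    (fun f hf hint => tbq_int1 hOK f hf hint) (fun f hf hint => tbq_int2 hOK f hf hint)

end Fermat.Agent.T1
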