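/-
T1-B (helper9): semicontinuity of the genus for the modular function fields:
`genus(F̄_N) ≤ genus(F_N) = genusFormula N`, from the finite-level interface `TbLevelOK` and the
function-field facts on the special fibre.  (No cusp forms, no Eisenstein families.)
-/
import Fermat.Agent.Lib.T1.Inst.BaseQ
import Fermat.Agent.Lib.T1.Core.GenusLe
import Fermat.Agent.Lib.S24.GenusRR

set_option autoImplicit false
set_option linter.style.haveILetI false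
set_option linter.unusedSectionVars false
set_option synthInstance.maxHeartbeats 400000

open HahnSeries ModularCurve Fermat.Agent.TW Fermat.Agent.S05Lib AlgebraicCurve
  Fermat.Agent.Curve IntermediateField

noncomputable section

namespace Fermat.Agent.T1

local notation "Qb" => AlgebraicClosure ℚ

variable {𝔓 : FFPlace} {N : ℕ} [NeZero N]

/-- `genus(F̄_N) ≤ genus(F_N)` -/
theorem tbq_genus_le (hOK : ∀ H : Subgroup 𝔓.I, H.FiniteIndex → TbLevelOK 𝔓 N H)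
    (hgenb : IsFunctionFieldGen (IsLocalRing.ResidueField ↥𝔓.P) ↥(tbBarF 𝔓 N) (tbBarJ 𝔓 N))
    [Algebra.IsSeparable ↥((IsLocalRing.ResidueField ↥𝔓.P)⟮tbBarJ 𝔓 N⟯) ↥(tbBarF 𝔓 N)]
    (hdeg : Module.finrank ↥((IsLocalRing.ResidueField ↥𝔓.P)⟮tbBarJ 𝔓 N⟯) ↥(tbBarF 𝔓 N) =
      dedekindPsi N) :
    CurveP.genusR (IsLocalRing.ResidueField ↥𝔓.P) ↥(tbBarF 𝔓 N) ≤
      CurveP.genusR Qb ↥(modularFunctionFieldBar N) := by
  haveI : IsAlgClosed (IsLocalRing.ResidueField ↥𝔓.P) := tb_isAlgClosed_residueField 𝔓.P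
  have hgen : IsFunctionFieldGen Qb ↥(modularFunctionFieldBar N) (tbJ N) :=
    Fermat.Agent.S24Lib.isFunctionFieldGen_jBar N
  haveI : Algebra.IsSeparable ↥(Qb⟮tbJ N⟯) ↥(modularFunctionFieldBar N) := by
    haveI := hgen.finite
    haveI : CharZero ↥(Qb⟮tbJ N⟯) :=
      charZero_of_injective_algebraMap (algebraMap Qb ↥(Qb⟮tbJ N⟯)).injective
    infer_instance
  have hdeg' : Module.finrank ↥(Qb⟮tbJ N⟯) ↥(modularFunctionFieldBar N) =
      Module.finrank ↥((IsLocalRing.ResidueField ↥𝔓.P)⟮tbBarJ 𝔓 N⟯) ↥(tbBarF 𝔓 N) := by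
    rw [hdeg]
    exact Fermat.Agent.S24Lib.finrank_jBar N
  have hres : (tbBaseQ hOK).res ⟨tbJ N, tbJ_mem_tbOvQ⟩ = tbBarJ 𝔓 N := tbResQ_tbJ hOK
  have key : ∀ xb : ↥(tbBarF 𝔓 N), xb = (tbBaseQ hOK).res ⟨tbJ N, tbJ_mem_tbOvQ⟩ →
      IsFunctionFieldGen (IsLocalRing.ResidueField ↥𝔓.P) ↥(tbBarF 𝔓 N) xb →
      Algebra.IsSeparable ↥((IsLocalRing.ResidueField ↥𝔓.P)⟮xb⟯) ↥(tbBarF 𝔓 N) →
      Module.finrank ↥(Qb⟮tbJ N⟯) ↥(modularFunctionFieldBar N) =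
        Module.finrank ↥((IsLocalRing.ResidueField ↥𝔓.P)⟮xb⟯) ↥(tbBarF 𝔓 N) →
      (∀ (f : ↥(modularFunctionFieldBar N)) (hf : f ∈ (tbBaseQ hOK).Ov),
        IsIntegral ↥(Algebra.adjoin Qb {tbJ N}) f →
        IsIntegral ↥(Algebra.adjoin (IsLocalRing.ResidueField ↥𝔓.P) {xb})
          ((tbBaseQ hOK).res ⟨f, hf⟩)) →
      (∀ (f : ↥(modularFunctionFieldBar N)) (hf : f ∈ (tbBaseQ hOK).Ov),
        IsIntegral ↥(Algebra.adjoin Qb {(tbJ N)⁻¹}) f →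
        IsIntegral ↥(Algebra.adjoin (IsLocalRing.ResidueField ↥𝔓.P) {xb⁻¹})
          ((tbBaseQ hOK).res ⟨f, hf⟩)) →
      CurveP.genusR (IsLocalRing.ResidueField ↥𝔓.P) ↥(tbBarF 𝔓 N) ≤
        CurveP.genusR Qb ↥(modularFunctionFieldBar N) := by
    intro xb hxb
    subst hxb
    intro h1 h2 h3 h4 h5
    haveI := h2
    exact tb_genus_le (tbBaseQ hOK) hgen tbJ_mem_tbOvQ tbJ_inv_mem_tbOvQ h1 h3 h4 h5
  exact key (tbBarJ 𝔓 N) hres.symm hgenb inferInstance hdeg'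
    (fun f hf hint => tbq_int1 hOK f hf hint) (fun f hf hint => tbq_int2 hOK f hf hint)

/-- the Riemann genus of `F_N` in the `CurveP` normalisation -/
theorem tbq_genusR_bar_eq :
    (CurveP.genusR Qb ↥(modularFunctionFieldBar N) : ℚ) = genusFormula N := by
  have hx := Fermat.Agent.S24Lib.isFunctionFieldGen_jBar N
  haveI : Algebra.IsSeparable ↥(Qb⟮Fermat.Agent.S24Lib.jBar N⟯) ↥(modularFunctionFieldBar N) := by
    haveI := hx.finite
    haveI : CharZero ↥(Qb⟮Fermat.Agent.S24Lib.jBar N⟯) :=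
      charZero_of_injective_algebraMap
        (algebraMap Qb ↥(Qb⟮Fermat.Agent.S24Lib.jBar N⟯)).injective
    infer_instance
  haveI := Fermat.Agent.Curve.hasCanonicalDivisor hx
  have h1 := Fermat.Agent.S24Lib.genusR_eq_genusFormula N
  have h2 : Fermat.Agent.Curve.genusR Qb ↥(modularFunctionFieldBar N) =
      CurveP.genusR Qb ↥(modularFunctionFieldBar N) := by
    rw [← Fermat.Agent.Curve.genus_eq_genusR hx, CurveP.genus_eq_genusR hx]
  rw [h2] at h1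
  exact h1

/-- **`genus(F̄_N) ≤ genusFormula N`** -/
theorem tbq_genusR_le (hOK : ∀ H : Subgroup 𝔓.I, H.FiniteIndex → TbLevelOK 𝔓 N H)
    (hgenb : IsFunctionFieldGen (IsLocalRing.ResidueField ↥𝔓.P) ↥(tbBarF 𝔓 N) (tbBarJ 𝔓 N))
    [Algebra.IsSeparable ↥((IsLocalRing.ResidueField ↥𝔓.P)⟮tbBarJ 𝔓 N⟯) ↥(tbBarF 𝔓 N)]
    (hdeg : Module.finrank ↥((IsLocalRing.ResidueField ↥𝔓.P)⟮tbBarJ 𝔓 N⟯) ↥(tbBarF 𝔓 N) =
      dedekindPsi N) :
    (CurveP.genusR (IsLocalRing.ResidueField ↥𝔓.P) ↥(tbBarF 𝔓 N) : ℚ) ≤ genusFormula N := by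
  rw [← tbq_genusR_bar_eq]
  exact_mod_cast tbq_genus_le hOK hgenb hdeg

end Fermat.Agent.T1
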