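/-
T1-A, T1A-UPPER (helper9): the lower bound for the genus of the special fibre,
`genusFormula N ≤ genus(F̄_N)` when `4 ∣ N` or `9 ∣ N` (`N ≠ 0` in `k`), from

* the Riemann–Hurwitz inequality over the genus-`0` field `F̄_e`, `e ∈ {4, 9}`
  (`ta_hurwitz_over_rational`, helper4),
* the pole counts of `j̄`: at least `3` resp. `4` in `F̄_e` (`ta_three_le_ncard_poles_four`,
  `ta_four_le_ncard_poles_nine`) and at most `cuspCount N` in `F̄_N` (`ta_ncard_poles_jbar_le`,
  helper5),
* the degrees `[F̄_e : k(j̄)] = ψ(e)` and `[F̄_N : k(j̄)] = ψ(N)`.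
-/
import Mathlib
import Fermat.Agent.Lib.T1.GoodRed.HurwitzRat
import Fermat.Agent.Lib.T1.GoodRed.BarCusps
import Fermat.Agent.Lib.T1.GoodRed.BarBase
import Fermat.Agent.Lib.T1.Inst.FullC

set_option autoImplicit false
set_option linter.unusedSectionVars false
set_option linter.style.haveILetI false

open HahnSeries ModularCurve IntermediateField AlgebraicCurve Fermat.Agent.Curve

noncomputable section

namespace Fermat.Agent.T1

section Tower

variable {K E F : Type*} [Field K] [Field E] [Field F] [Algebra K E] [Algebra K F] [Algebra E F]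
  [IsScalarTower K E F]

/-- `[F : K(y)] = [E : K(y)] [F : E]` for `y ∈ E ⊆ F` -/
theorem tbu_finrank_tower (y : E) :
    Module.finrank ↥K⟮algebraMap E F y⟯ F = Module.finrank ↥K⟮y⟯ E * Module.finrank E F := by
  rw [Module.finrank_mul_finrank ↥K⟮y⟯ E F]
  have h1 : (K⟮y⟯).map (IsScalarTower.toAlgHom K E F) = K⟮algebraMap E F y⟯ := by
    rw [IntermediateField.adjoin_map, Set.image_singleton]
    rfl
  let e₁ : ↥K⟮y⟯ ≃+* ↥K⟮algebraMap E F y⟯ :=
    ((IntermediateField.equivMap K⟮y⟯ (IsScalarTower.toAlgHom K E F)).trans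
      (IntermediateField.equivOfEq h1)).toRingEquiv
  refine (Algebra.finrank_eq_of_equiv_equiv e₁ (RingEquiv.refl F) ?_).symm
  ext c
  rfl

end Tower

section Generic

variable (k : Type*) [Field k] [IsAlgClosed k]

/-- **Riemann–Hurwitz over `F̄_e`**: if `F̄_e` has genus `0`, `j̄` has at least `c` poles in `F̄_e`
with `ψ(e) + 12 ≤ 6 c`, and the degrees over `k(j̄)` are `ψ(e)`, `ψ(N)`, then
`genusFormula N ≤ genus(F̄_N)`. -/
theorem tbu_genusR_ge (e N : ℕ) [NeZero e] [NeZero N] (heN : e ∣ N) (hN : (N : k) ≠ 0) (c : ℕ)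
    (hc : c ≤ {Q : Place k (TaBar k e) | Q.ord (taBarJ k e) < 0}.ncard)
    (hce : dedekindPsi e + 12 ≤ 6 * c)
    (hgE : CurveP.genusR k (TaBar k e) = 0)
    (hdegE : Module.finrank ↥(k⟮taBarJ k e⟯) (TaBar k e) = dedekindPsi e)
    (hdegF : Module.finrank ↥(k⟮taBarJ k N⟯) (TaBar k N) = dedekindPsi N) :
    genusFormula N ≤ (CurveP.genusR k (TaBar k N) : ℚ) := by
  have he0 : (e : k) ≠ 0 := by
    obtain ⟨d, rfl⟩ := heN
    intro h
    apply hN
    rw [Nat.cast_mul, h, zero_mul]
  have hle : modularFunctionFieldFullC k e ≤ modularFunctionFieldFullC k N := tbi_fullC_mono heN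
  letI : Algebra (TaBar k e) (TaBar k N) := (IntermediateField.inclusion hle).toRingHom.toAlgebra
  haveI : IsScalarTower k (TaBar k e) (TaBar k N) := IsScalarTower.of_algebraMap_eq fun _ => rfl
  have hJ : algebraMap (TaBar k e) (TaBar k N) (taBarJ k e) = taBarJ k N := rfl
  have hyE := ta_bar_isFunctionFieldGen k e
  haveI := ta_bar_isSeparable k e he0
  have hyF : IsFunctionFieldGen k (TaBar k N) (algebraMap (TaBar k e) (TaBar k N) (taBarJ k e)) := by
    rw [hJ]
    exact ta_bar_isFunctionFieldGen k N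
  haveI : Algebra.IsSeparable ↥(k⟮algebraMap (TaBar k e) (TaBar k N) (taBarJ k e)⟯) (TaBar k N) := by
    rw [hJ]
    exact ta_bar_isSeparable k N hN
  have hRH := ta_hurwitz_over_rational hyE hgE hyF
  have htower := tbu_finrank_tower (K := k) (F := TaBar k N) (taBarJ k e)
  rw [hJ] at hRH htower
  rw [hdegE, hdegF] at htower
  have hcusp := ta_ncard_poles_jbar_le k N hN
  set cE := {Q : Place k (TaBar k e) | Q.ord (taBarJ k e) < 0}.ncard with hcE
  set cF := {Q : Place k (TaBar k N) | Q.ord (taBarJ k N) < 0}.ncard with hcF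
  set d := Module.finrank (TaBar k e) (TaBar k N) with hd
  set g := CurveP.genusR k (TaBar k N) with hg
  -- arithmetic
  have h1 : ((c : ℤ) - 2) * d ≤ ((cE : ℤ) - 2) * d := by
    apply mul_le_mul_of_nonneg_right _ (by positivity)
    have : (c : ℤ) ≤ cE := by exact_mod_cast hc
    linarith
  have h2 : (dedekindPsi N : ℤ) ≤ 6 * (((c : ℤ) - 2) * d) := by
    have h3 : (dedekindPsi N : ℤ) = dedekindPsi e * d := by exact_mod_cast htower
    have h4 : (dedekindPsi e : ℤ) + 12 ≤ 6 * c := by exact_mod_cast hce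
    have hd0 : (0 : ℤ) ≤ d := by positivity
    rw [h3]
    nlinarith
  have h5 : (cF : ℤ) ≤ cuspCount N := by exact_mod_cast hcusp
  have h6 : (dedekindPsi N : ℤ) - 6 * cuspCount N ≤ 12 * (g : ℤ) - 12 := by linarith
  have h7 : (dedekindPsi N : ℚ) - 6 * cuspCount N ≤ 12 * (g : ℚ) - 12 := by exact_mod_cast h6
  rw [genusFormula]
  have h8 : (0 : ℚ) ≤ (nuTwo N : ℚ) / 4 := by positivity
  have h9 : (0 : ℚ) ≤ (nuThree N : ℚ) / 3 := by positivity
  linarith

end Generic

end Fermat.Agent.T1
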