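/-
T1-B (helper9): the special fibre `F̄_N = κ(j̄(q^d) : d ∣ N)` over the residue field `κ` of a place
`𝔓` of `ℚ̄` with `𝔓.p ∤ N`, from the finite-level interface `TbLevelOK`:

* `tbq_finrank_bar`: `[F̄_N : κ(j̄)] = ψ(N)` (`≥`: helper5's tower bound; `≤`: residue degree at
  most generic degree, `TbBase.finrank_res_le`);
* `tbq_genusR_ge` / `tbq_genusR_eq`: `genus(F̄_N) = genusFormula N` when `4 ∣ N` or `9 ∣ N`
  (Riemann–Hurwitz over the genus-`0` field `F̄_4` resp. `F̄_9`).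
-/
import Fermat.Agent.Lib.T1.Inst.Upper
import Fermat.Agent.Lib.T1.Inst.GenusQ
import Fermat.Agent.Lib.T1.Core.DegLe
import Fermat.Agent.Lib.T1.Kron.Rep

set_option autoImplicit false
set_option linter.style.haveILetI false
set_option linter.unusedSectionVars false
set_option synthInstance.maxHeartbeats 400000

open HahnSeries ModularCurve Fermat.Agent.TW Fermat.Agent.S05Lib AlgebraicCurve
  Fermat.Agent.Curve IntermediateField

noncomputable section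

namespace Fermat.Agent.T1

local notation "Qb" => AlgebraicClosure ℚ

variable {𝔓 : FFPlace} {N : ℕ} [NeZero N]

/-- `N ≠ 0` in the residue field if `𝔓.p ∤ N` -/
theorem tbq_natCast_ne_zero (hN : ¬ 𝔓.p ∣ N) :
    ((N : ℕ) : IsLocalRing.ResidueField ↥𝔓.P) ≠ 0 := by
  haveI : CharP (IsLocalRing.ResidueField ↥𝔓.P) 𝔓.p := tkr_charP_residue 𝔓.hp 𝔓.hP
  intro h
  exact hN ((CharP.cast_eq_zero_iff (IsLocalRing.ResidueField ↥𝔓.P) 𝔓.p N).mp h)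

/-- `j̄` generates `F̄_N` as a function field -/
theorem tbq_bar_isFunctionFieldGen (𝔓 : FFPlace) (N : ℕ) [NeZero N] :
    IsFunctionFieldGen (IsLocalRing.ResidueField ↥𝔓.P) ↥(tbBarF 𝔓 N) (tbBarJ 𝔓 N) :=
  ta_bar_isFunctionFieldGen (IsLocalRing.ResidueField ↥𝔓.P) N

/-- `j̄` is separating -/
theorem tbq_bar_isSeparable (hN : ¬ 𝔓.p ∣ N) :
    Algebra.IsSeparable ↥((IsLocalRing.ResidueField ↥𝔓.P)⟮tbBarJ 𝔓 N⟯) ↥(tbBarF 𝔓 N) := by
  haveI : IsAlgClosed (IsLocalRing.ResidueField ↥𝔓.P) := tb_isAlgClosed_residueField 𝔓.P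
  exact ta_bar_isSeparable (IsLocalRing.ResidueField ↥𝔓.P) N (tbq_natCast_ne_zero hN)

/-- **`[F̄_N : κ(j̄)] = ψ(N)`** -/
theorem tbq_finrank_bar (hOK : ∀ H : Subgroup 𝔓.I, H.FiniteIndex → TbLevelOK 𝔓 N H)
    (hN : ¬ 𝔓.p ∣ N) :
    Module.finrank ↥((IsLocalRing.ResidueField ↥𝔓.P)⟮tbBarJ 𝔓 N⟯) ↥(tbBarF 𝔓 N) =
      dedekindPsi N := by
  haveI : IsAlgClosed (IsLocalRing.ResidueField ↥𝔓.P) := tb_isAlgClosed_residueField 𝔓.P
  apply le_antisymm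
  · have hgen : IsFunctionFieldGen Qb ↥(modularFunctionFieldBar N) (tbJ N) :=
      Fermat.Agent.S24Lib.isFunctionFieldGen_jBar N
    haveI := hgen.finite
    have h := (tbBaseQ hOK).finrank_res_le (x := tbJ N) tbJ_mem_tbOvQ
      (by
        show Transcendental _ (tbResQ hOK ⟨tbJ N, tbJ_mem_tbOvQ⟩)
        rw [tbResQ_tbJ hOK]
        exact (tbq_bar_isFunctionFieldGen 𝔓 N).1)
    have h2 : (tbBaseQ hOK).res ⟨tbJ N, tbJ_mem_tbOvQ⟩ = tbBarJ 𝔓 N := tbResQ_tbJ hOK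
    rw [h2] at h
    refine h.trans (le_of_eq ?_)
    exact Fermat.Agent.S24Lib.finrank_jBar N
  · exact ta_bar_finrank_ge (IsLocalRing.ResidueField ↥𝔓.P) N (tbq_natCast_ne_zero hN)

/-- the genus of the special fibre is at most `genusFormula N` -/
theorem tbq_genusR_le' (hOK : ∀ H : Subgroup 𝔓.I, H.FiniteIndex → TbLevelOK 𝔓 N H)
    (hN : ¬ 𝔓.p ∣ N) :
    (CurveP.genusR (IsLocalRing.ResidueField ↥𝔓.P) ↥(tbBarF 𝔓 N) : ℚ) ≤ genusFormula N := by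
  haveI := tbq_bar_isSeparable hN
  exact tbq_genusR_le hOK (tbq_bar_isFunctionFieldGen 𝔓 N) (tbq_finrank_bar hOK hN)

theorem tbu_dedekindPsi_four : dedekindPsi 4 = 6 := by
  have h := Fermat.Agent.Igusa.TowerData.twl_dedekindPsi_prime_pow Nat.prime_two
    (show 0 < 2 by norm_num)
  norm_num at h
  exact h

theorem tbu_dedekindPsi_nine : dedekindPsi 9 = 12 := by
  have h := Fermat.Agent.Igusa.TowerData.twl_dedekindPsi_prime_pow Nat.prime_three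
    (show 0 < 2 by norm_num)
  norm_num at h
  exact h

theorem tbu_cuspCount_four : cuspCount 4 = 3 := by decide

theorem tbu_cuspCount_nine : cuspCount 9 = 4 := by decide

/-- `F̄_4` has genus `0` -/
theorem tbq_genusR_four (hOK : ∀ H : Subgroup 𝔓.I, H.FiniteIndex → TbLevelOK 𝔓 4 H)
    (h4 : ¬ 𝔓.p ∣ 4) :
    CurveP.genusR (IsLocalRing.ResidueField ↥𝔓.P) ↥(tbBarF 𝔓 4) = 0 := by
  have h := tbq_genusR_le' hOK h4
  rw [genusFormula, tbu_dedekindPsi_four, tbu_cuspCount_four] at h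
  have h8 : (0 : ℚ) ≤ (nuTwo 4 : ℚ) / 4 := by positivity
  have h9 : (0 : ℚ) ≤ (nuThree 4 : ℚ) / 3 := by positivity
  have h10 : (CurveP.genusR (IsLocalRing.ResidueField ↥𝔓.P) ↥(tbBarF 𝔓 4) : ℚ) ≤ 0 := by
    push_cast at h
    linarith
  have h11 : CurveP.genusR (IsLocalRing.ResidueField ↥𝔓.P) ↥(tbBarF 𝔓 4) ≤ 0 := by
    exact_mod_cast h10
  omega

/-- `F̄_9` has genus `0` -/
theorem tbq_genusR_nine (hOK : ∀ H : Subgroup 𝔓.I, H.FiniteIndex → TbLevelOK 𝔓 9 H)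
    (h9 : ¬ 𝔓.p ∣ 9) :
    CurveP.genusR (IsLocalRing.ResidueField ↥𝔓.P) ↥(tbBarF 𝔓 9) = 0 := by
  have h := tbq_genusR_le' hOK h9
  rw [genusFormula, tbu_dedekindPsi_nine, tbu_cuspCount_nine] at h
  have h8 : (0 : ℚ) ≤ (nuTwo 9 : ℚ) / 4 := by positivity
  have h9 : (0 : ℚ) ≤ (nuThree 9 : ℚ) / 3 := by positivity
  have h10 : (CurveP.genusR (IsLocalRing.ResidueField ↥𝔓.P) ↥(tbBarF 𝔓 9) : ℚ) ≤ 0 := by
    push_cast at h
    linarith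
  have h11 : CurveP.genusR (IsLocalRing.ResidueField ↥𝔓.P) ↥(tbBarF 𝔓 9) ≤ 0 := by
    exact_mod_cast h10
  omega

/-- **`genusFormula N ≤ genus(F̄_N)`** when `4 ∣ N`, `𝔓.p ∤ N` -/
theorem tbq_genusR_ge_four (h4N : 4 ∣ N) (hN : ¬ 𝔓.p ∣ N)
    (hOK4 : ∀ H : Subgroup 𝔓.I, H.FiniteIndex → TbLevelOK 𝔓 4 H)
    (hOK : ∀ H : Subgroup 𝔓.I, H.FiniteIndex → TbLevelOK 𝔓 N H) :
    genusFormula N ≤ (CurveP.genusR (IsLocalRing.ResidueField ↥𝔓.P) ↥(tbBarF 𝔓 N) : ℚ) := by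
  haveI : IsAlgClosed (IsLocalRing.ResidueField ↥𝔓.P) := tb_isAlgClosed_residueField 𝔓.P
  have h4 : ¬ 𝔓.p ∣ 4 := fun h => hN (h.trans h4N)
  have h2 : ((2 : ℕ) : IsLocalRing.ResidueField ↥𝔓.P) ≠ 0 :=
    tbq_natCast_ne_zero (N := 2) fun h => h4 (h.trans (by norm_num))
  refine tbu_genusR_ge (IsLocalRing.ResidueField ↥𝔓.P) 4 N h4N (tbq_natCast_ne_zero hN) 3
    (ta_three_le_ncard_poles_four _ (by exact_mod_cast h2)) ?_ (tbq_genusR_four hOK4 h4)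
    (tbq_finrank_bar hOK4 h4) (tbq_finrank_bar hOK hN)
  rw [tbu_dedekindPsi_four]

/-- **`genusFormula N ≤ genus(F̄_N)`** when `9 ∣ N`, `𝔓.p ∤ N` -/
theorem tbq_genusR_ge_nine (h9N : 9 ∣ N) (hN : ¬ 𝔓.p ∣ N)
    (hOK9 : ∀ H : Subgroup 𝔓.I, H.FiniteIndex → TbLevelOK 𝔓 9 H)
    (hOK : ∀ H : Subgroup 𝔓.I, H.FiniteIndex → TbLevelOK 𝔓 N H) :
    genusFormula N ≤ (CurveP.genusR (IsLocalRing.ResidueField ↥𝔓.P) ↥(tbBarF 𝔓 N) : ℚ) := by
  haveI : IsAlgClosed (IsLocalRing.ResidueField ↥𝔓.P) := tb_isAlgClosed_residueField 𝔓.P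
  have h9 : ¬ 𝔓.p ∣ 9 := fun h => hN (h.trans h9N)
  have h3 : ((3 : ℕ) : IsLocalRing.ResidueField ↥𝔓.P) ≠ 0 :=
    tbq_natCast_ne_zero (N := 3) fun h => h9 (h.trans (by norm_num))
  refine tbu_genusR_ge (IsLocalRing.ResidueField ↥𝔓.P) 9 N h9N (tbq_natCast_ne_zero hN) 4
    (ta_four_le_ncard_poles_nine _ (by exact_mod_cast h3)) ?_ (tbq_genusR_nine hOK9 h9)
    (tbq_finrank_bar hOK9 h9) (tbq_finrank_bar hOK hN)
  rw [tbu_dedekindPsi_nine]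

end Fermat.Agent.T1
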